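import Mathlib.Analysis.Complex.Basic
import Mathlib.LinearAlgebra.Matrix.FixedDetMatrices
import Mathlib.LinearAlgebra.FiniteDimensional.Lemmas
import Fermat.Prelude.Def_ModularCurve_PeriodMap
import Fermat.Agent.Gamma0Count

/-!
Shapiro's cocycle of a homomorphism `Γ₀(N) → ℂ`, on the coset space of `Γ₀(N)`.
-/

set_option autoImplicit false

open CongruenceSubgroup Matrix
open scoped MatrixGroups

namespace Fermat.Agent.EichlerShimura

open Gamma0Count

variable {N : ℕ}

/-- A `1`-cocycle of `SL(2,ℤ)` with values in functions on the coset space. -/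
def IsCocycle (F : SL(2, ℤ) → CosetSpace N → ℂ) : Prop :=
  ∀ g h x, F (g * h) x = F g (h • x) + F h x

namespace IsCocycle

variable {F : SL(2, ℤ) → CosetSpace N → ℂ} (hF : IsCocycle F)
include hF

lemma map_one (x : CosetSpace N) : F 1 x = 0 := by
  have := hF 1 1 x
  rw [one_smul, mul_one] at this
  linear_combination -this

/-- A cocycle vanishing at the generators vanishes. -/
lemma eq_zero (hS : F ModularGroup.S = 0) (hU : F (ModularGroup.S * ModularGroup.T) = 0) :
    F = 0 := by
  let K : Subgroup SL(2, ℤ) :=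
    { carrier := {g | F g = 0}
      one_mem' := funext fun x => hF.map_one x
      mul_mem' := fun {g h} hg hh => funext fun x => by
        rw [hF, hg, hh]; simp
      inv_mem' := fun {g} hg => funext fun x => by
        have := hF g g⁻¹ x
        rw [mul_inv_cancel, hF.map_one, hg] at this
        simpa using this.symm }
  have hK : K = ⊤ := by
    rw [eq_top_iff, ← _root_.SpecialLinearGroup.SL2Z_generators, Subgroup.closure_le]
    have hS' : ModularGroup.S ∈ K := hS
    rintro g (rfl | rfl)
    · exact hS'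
    · have := K.mul_mem (K.inv_mem hS') (show ModularGroup.S * ModularGroup.T ∈ K from hU)
      rwa [inv_mul_cancel_left] at this
  exact funext fun g => (hK.symm ▸ Subgroup.mem_top g : g ∈ K)

end IsCocycle

lemma S_mul_S : ModularGroup.S * ModularGroup.S = -1 := by
  refine Matrix.SpecialLinearGroup.ext _ _ fun i j => ?_
  rw [Matrix.SpecialLinearGroup.coe_mul]
  fin_cases i <;> fin_cases j <;> simp [ModularGroup.S, Matrix.mul_apply, Fin.sum_univ_two]

lemma ST_cube :
    ModularGroup.S * ModularGroup.T * (ModularGroup.S * ModularGroup.T) *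
      (ModularGroup.S * ModularGroup.T) = -1 := by
  refine Matrix.SpecialLinearGroup.ext _ _ fun i j => ?_
  simp only [Matrix.SpecialLinearGroup.coe_mul]
  fin_cases i <;> fin_cases j <;>
    simp [ModularGroup.S, ModularGroup.T, Matrix.mul_apply, Fin.sum_univ_two]

lemma neg_one_mem_Gamma0 : (-1 : SL(2, ℤ)) ∈ Gamma0 N := by
  rw [Gamma0_mem]; simp

lemma neg_one_smul_coset (x : CosetSpace N) : (-1 : SL(2, ℤ)) • x = x := by
  obtain ⟨g, rfl⟩ := Quotient.exists_rep x
  show ((-1 * g : SL(2, ℤ)) : CosetSpace N) = (g : CosetSpace N)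
  rw [QuotientGroup.eq]
  have : (-1 * g)⁻¹ * g = (-1 : SL(2, ℤ)) := by
    refine inv_mul_eq_of_eq_mul ?_
    rw [neg_one_mul, neg_mul, mul_neg_one, neg_neg]
  rw [this]
  exact neg_one_mem_Gamma0

lemma S_smul_S_smul (x : CosetSpace N) : ModularGroup.S • ModularGroup.S • x = x := by
  rw [smul_smul, S_mul_S, neg_one_smul_coset]

lemma ST_smul_cube (x : CosetSpace N) :
    (ModularGroup.S * ModularGroup.T) • (ModularGroup.S * ModularGroup.T) •
      (ModularGroup.S * ModularGroup.T) • x = x := by
  rw [smul_smul, smul_smul, ST_cube, neg_one_smul_coset]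

lemma T_smul_eq (x : CosetSpace N) :
    ModularGroup.T • x = ModularGroup.S • (ModularGroup.S * ModularGroup.T) • x := by
  rw [smul_smul, ← mul_assoc, S_mul_S, mul_smul, neg_one_smul_coset]

/-- The chosen representative of a coset. -/
noncomputable def rep (x : CosetSpace N) : SL(2, ℤ) := x.out

lemma mk_rep (x : CosetSpace N) : ((rep x : SL(2, ℤ)) : CosetSpace N) = x :=
  QuotientGroup.out_eq' x

lemma rep_conj_mem (g : SL(2, ℤ)) (x : CosetSpace N) :
    (rep (g • x))⁻¹ * (g * rep x) ∈ Gamma0 N := by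
  rw [← QuotientGroup.eq, mk_rep, ← smul_eq_mul, ← MulAction.Quotient.smul_coe, mk_rep]

/-- The element `s(gx)⁻¹ g s(x)` of `Γ₀(N)`. -/
noncomputable def transfer (g : SL(2, ℤ)) (x : CosetSpace N) : Gamma0 N :=
  ⟨_, rep_conj_mem g x⟩

lemma transfer_mul (g h : SL(2, ℤ)) (x : CosetSpace N) :
    transfer (g * h) x = transfer g (h • x) * transfer h x := by
  apply Subtype.ext
  simp only [transfer, Subgroup.coe_mul, mul_smul]
  group

/-- Shapiro's map. -/
noncomputable def shapiro (g : SL(2, ℤ)) :
    (Additive (Gamma0 N) →+ ℂ) →ₗ[ℂ] (CosetSpace N → ℂ) where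
  toFun φ x := φ (Additive.ofMul (transfer g x))
  map_add' _ _ := rfl
  map_smul' _ _ := rfl

lemma isCocycle_shapiro (φ : Additive (Gamma0 N) →+ ℂ) :
    IsCocycle fun g => shapiro g φ := fun g h x => by
  show φ (Additive.ofMul (transfer (g * h) x)) = _
  rw [transfer_mul, ofMul_mul, map_add]
  rfl

lemma isCocycle_add {F G : SL(2, ℤ) → CosetSpace N → ℂ} (hF : IsCocycle F) (hG : IsCocycle G) :
    IsCocycle (F + G) := fun g h x => by
  simp only [Pi.add_apply, hF g h x, hG g h x]
  ring

lemma isCocycle_coboundary (v : CosetSpace N → ℂ) :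
    IsCocycle fun g x => v (g • x) - v x := fun g h x => by
  simp only [mul_smul]; ring

/-- The cocycle of a pair (homomorphism, function). -/
noncomputable def fullCocycle (g : SL(2, ℤ)) :
    (Additive (Gamma0 N) →+ ℂ) × (CosetSpace N → ℂ) →ₗ[ℂ] (CosetSpace N → ℂ) :=
  LinearMap.coprod (shapiro g) (LinearMap.funLeft ℂ ℂ (g • ·) - LinearMap.id)

lemma fullCocycle_apply (g : SL(2, ℤ)) (φ : Additive (Gamma0 N) →+ ℂ) (v : CosetSpace N → ℂ)
    (x : CosetSpace N) :
    fullCocycle g (φ, v) x = φ (Additive.ofMul (transfer g x)) + (v (g • x) - v x) := rfl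

lemma isCocycle_fullCocycle (p : (Additive (Gamma0 N) →+ ℂ) × (CosetSpace N → ℂ)) :
    IsCocycle fun g => fullCocycle g p :=
  isCocycle_add (isCocycle_shapiro p.1) (isCocycle_coboundary p.2)

lemma fullCocycle_eq_zero {φ : Additive (Gamma0 N) →+ ℂ} {v : CosetSpace N → ℂ}
    (hS : fullCocycle ModularGroup.S (φ, v) = 0)
    (hU : fullCocycle (ModularGroup.S * ModularGroup.T) (φ, v) = 0) :
    φ = 0 ∧ ∀ x y, v x = v y := by
  have h := (isCocycle_fullCocycle (φ, v)).eq_zero hS hU
  have hφ : φ = 0 := by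
    refine AddMonoidHom.ext fun γ => ?_
    set s : SL(2, ℤ) := rep ((1 : SL(2, ℤ)) : CosetSpace N) with hs_def
    have hs : s ∈ Gamma0 N := by
      have := (QuotientGroup.eq).mp (mk_rep ((1 : SL(2, ℤ)) : CosetSpace N))
      rwa [mul_one, Subgroup.inv_mem_iff] at this
    set g : SL(2, ℤ) := s * (Additive.toMul γ : Gamma0 N) * s⁻¹
    have hg : g ∈ Gamma0 N := mul_mem (mul_mem hs (Additive.toMul γ).2) (inv_mem hs)
    have hx : g • ((1 : SL(2, ℤ)) : CosetSpace N) = ((1 : SL(2, ℤ)) : CosetSpace N) := by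
      rw [MulAction.Quotient.smul_coe, smul_eq_mul, mul_one, QuotientGroup.eq, mul_one]
      exact inv_mem hg
    have := congrFun (congrFun h g) ((1 : SL(2, ℤ)) : CosetSpace N)
    simp only [fullCocycle_apply, hx, sub_self, add_zero, Pi.zero_apply] at this
    have ht : transfer g ((1 : SL(2, ℤ)) : CosetSpace N) = Additive.toMul γ := by
      apply Subtype.ext
      simp only [transfer, hx, ← hs_def, g]
      group
    rwa [ht] at this
  refine ⟨hφ, fun x y => ?_⟩
  subst hφ
  obtain ⟨g, rfl⟩ := MulAction.exists_smul_eq SL(2, ℤ) x y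
  have := congrFun (congrFun h g) x
  simp only [fullCocycle_apply, AddMonoidHom.zero_apply, zero_add, Pi.zero_apply] at this
  exact (sub_eq_zero.mp this).symm

end Fermat.Agent.EichlerShimura
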