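import Mathlib.Analysis.Complex.AbsMax
import Mathlib.NumberTheory.ModularForms.QExpansion
import Mathlib.NumberTheory.Modular
import Fermat.Prelude.Def_ModularCurve_PeriodMapBundled
import Fermat.Agent.EichlerShimura.Shapiro

/-!
A weight two cusp form all whose periods are purely imaginary vanishes.
-/

set_option autoImplicit false

open CongruenceSubgroup UpperHalfPlane Filter Topology
open scoped MatrixGroups ModularForm Manifold Real

namespace Fermat.Agent.EichlerShimura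

open Gamma0Count ModularCurve ModularCurve.Period

variable {N : ℕ} {f : CuspForm (Gamma0 N) 2} {F : ℍ → ℂ}

lemma mdifferentiable_primitive (hF : HasEquivariantPrimitive N f F) : MDiff F := fun τ =>
  UpperHalfPlane.mdifferentiableAt_iff.mpr (hF.1 τ).differentiableAt

lemma mdifferentiable_comp_smul {G : ℍ → ℂ} (hG : MDiff G) (δ : SL(2, ℤ)) :
    MDiff (fun w : ℍ => G (δ • w)) := by
  have h := hG.slash 0 (δ : GL (Fin 2) ℝ)
  have he : (G ∣[(0 : ℤ)] (δ : GL (Fin 2) ℝ)) = fun w : ℍ => G (δ • w) := by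
    funext w
    rw [← ModularForm.SL_slash, ModularForm.SL_slash_apply, neg_zero, zpow_zero, mul_one]
  rwa [he] at h

lemma tendsto_vadd_atImInfty (x : ℝ) :
    Tendsto (fun w : ℍ => x +ᵥ w) atImInfty atImInfty := by
  rw [atImInfty, tendsto_comap_iff]
  simp only [Function.comp_def, vadd_im]
  exact tendsto_comap

lemma T_pow_conj_mem (δ : SL(2, ℤ)) : δ * ModularGroup.T ^ (N : ℤ) * δ⁻¹ ∈ Gamma0 N := by
  have hle : Gamma N ≤ Gamma0 N := fun γ hγ => Gamma0_mem.mpr (Gamma_mem.mp hγ).2.2.1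
  have h := ModularGroup_T_pow_mem_Gamma (N : ℤ) (N : ℤ) dvd_rfl
  rw [Int.natAbs_natCast] at h
  exact hle ((Gamma_normal N).conj_mem _ h δ)

/-- A primitive is periodic of period `N` at every cusp. -/
lemma primitive_smul_vadd (hF : HasEquivariantPrimitive N f F) (δ : SL(2, ℤ)) (w : ℍ) :
    F (δ • ((N : ℝ) +ᵥ w)) = F (δ • w) := by
  obtain ⟨c, hc⟩ := hF.2.2.1 ⟨_, T_pow_conj_mem δ⟩
  have key : ∀ v : ℍ, F (δ • ((N : ℝ) +ᵥ v)) - F (δ • v) = c := by
    intro v
    have h := hc (δ • v)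
    rw [smul_smul, mul_assoc, inv_mul_cancel, mul_one, mul_smul,
      modular_T_zpow_smul, Int.cast_natCast] at h
    exact h
  obtain ⟨L, hL⟩ := hF.2.2.2 δ
  have hc0 : c = 0 := by
    have h1 : Tendsto (fun v : ℍ => F (δ • ((N : ℝ) +ᵥ v)) - F (δ • v)) atImInfty (𝓝 (L - L)) :=
      (hL.comp (tendsto_vadd_atImInfty _)).sub hL
    simp only [key, sub_self] at h1
    exact tendsto_nhds_unique tendsto_const_nhds h1
  exact sub_eq_zero.mp ((key w).trans hc0)

variable [NeZero N]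

/-- If all periods have vanishing real part then the form is zero. -/
theorem eq_zero_of_re_period_eq_zero (hF : HasEquivariantPrimitive N f F)
    (hre : ∀ γ : Gamma0 N, (hF.2.2.1.period γ).re = 0) : f = 0 := by
  have hinv : ∀ (γ : Gamma0 N) (w : ℍ), (F ((γ : SL(2, ℤ)) • w)).re = (F w).re := by
    intro γ w
    have := congrArg Complex.re (hF.2.2.1.sub_eq_period γ w)
    rw [Complex.sub_re, hre γ] at this
    linarith
  set E : ℍ → ℂ := fun w => Complex.exp (F w) with hE
  have hEd : MDiff E := fun τ => UpperHalfPlane.mdifferentiableAt_iff.mpr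
    ((UpperHalfPlane.mdifferentiableAt_iff.mp (mdifferentiable_primitive hF τ)).cexp)
  have hnorm : ∀ (γ : Gamma0 N) (w : ℍ), ‖E ((γ : SL(2, ℤ)) • w)‖ = ‖E w‖ := fun γ w => by
    rw [hE, Complex.norm_exp, Complex.norm_exp, hinv]
  set g : CosetSpace N → ℂ → ℂ := fun x =>
    UpperHalfPlane.cuspFunction N (fun w => E ((rep x)⁻¹ • w)) with hg
  have hN : (0 : ℝ) < N := by exact_mod_cast Nat.pos_of_ne_zero (NeZero.ne N)
  have hper : ∀ x : CosetSpace N,
      Function.Periodic ((fun w => E ((rep x)⁻¹ • w)) ∘ ofComplex) (N : ℝ) := by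
    intro x z
    rcases lt_or_ge 0 z.im with hz | hz
    · have hz' : 0 < (z + ((N : ℝ) : ℂ)).im := by simpa using hz
      have : ofComplex (z + ((N : ℝ) : ℂ)) = (N : ℝ) +ᵥ ofComplex z := by
        ext
        rw [coe_vadd, ofComplex_apply_of_im_pos hz', ofComplex_apply_of_im_pos hz]
        exact add_comm _ _
      simp only [Function.comp_apply, this, hE, primitive_smul_vadd hF]
    · have hz' : (z + ((N : ℝ) : ℂ)).im ≤ 0 := by simpa using hz
      simp only [Function.comp_apply, ofComplex_apply_eq_of_im_nonpos hz' hz]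
  have hdiff : ∀ (x : CosetSpace N) (q : ℂ), ‖q‖ < 1 → DifferentiableAt ℂ (g x) q := by
    intro x q hq
    obtain ⟨L, hL⟩ := hF.2.2.2 (rep x)⁻¹
    exact differentiableAt_cuspFunction hN (hper x) (mdifferentiable_comp_smul hEd _)
      (((Complex.continuous_exp.tendsto L).comp hL).isBigO_one ℝ) hq
  have heval : ∀ (x : CosetSpace N) (w : ℍ),
      g x (Function.Periodic.qParam (N : ℝ) w) = E ((rep x)⁻¹ • w) :=
    fun x w => eq_cuspFunction w hN.ne' (hper x)
  set ρ : ℝ := Real.exp (-π / N) with hρdef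
  have hρ : ρ < 1 := Real.exp_lt_one_iff.mpr (div_neg_of_neg_of_pos (neg_neg_of_pos Real.pi_pos) hN)
  have hK : ∀ q ∈ Metric.closedBall (0 : ℂ) ρ, ‖q‖ < 1 := fun q hq =>
    (mem_closedBall_zero_iff.mp hq).trans_lt hρ
  have hmax : ∀ x : CosetSpace N, ∃ q ∈ Metric.closedBall (0 : ℂ) ρ,
      ∀ q' ∈ Metric.closedBall (0 : ℂ) ρ, ‖g x q'‖ ≤ ‖g x q‖ := fun x =>
    (isCompact_closedBall (0 : ℂ) ρ).exists_isMaxOn
      ⟨0, Metric.mem_closedBall_self (Real.exp_nonneg _)⟩
      (ContinuousOn.norm fun q hq => (hdiff x q (hK q hq)).continuousAt.continuousWithinAt)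
  choose qmax hqmax hqle using hmax
  obtain ⟨x₀, -, hx₀⟩ := Finset.exists_max_image (Finset.univ : Finset (CosetSpace N))
    (fun x => ‖g x (qmax x)‖) ⟨((1 : SL(2, ℤ)) : CosetSpace N), Finset.mem_univ _⟩
  have hbound : ∀ w : ℍ, ‖E w‖ ≤ ‖g x₀ (qmax x₀)‖ := by
    intro τ
    obtain ⟨s, hs⟩ := ModularGroup.exists_one_half_le_im_smul τ
    have hmem : s⁻¹ * rep ((s : SL(2, ℤ)) : CosetSpace N) ∈ Gamma0 N :=
      QuotientGroup.eq.mp (mk_rep _).symm
    have h1 : ‖E τ‖ = ‖E ((rep ((s : SL(2, ℤ)) : CosetSpace N))⁻¹ • (s • τ))‖ := by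
      have h := hnorm ⟨_, hmem⟩ ((rep ((s : SL(2, ℤ)) : CosetSpace N))⁻¹ • (s • τ))
      rwa [smul_smul, mul_assoc, mul_inv_cancel, mul_one, inv_smul_smul] at h
    have hq : Function.Periodic.qParam (N : ℝ) ((s • τ : ℍ) : ℂ) ∈ Metric.closedBall (0 : ℂ) ρ := by
      rw [mem_closedBall_zero_iff, Function.Periodic.norm_qParam, hρdef, Real.exp_le_exp,
        div_le_div_iff_of_pos_right hN, coe_im]
      nlinarith [Real.pi_pos]
    rw [h1, ← heval]
    exact (hqle _ _ hq).trans (hx₀ _ (Finset.mem_univ _))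
  have hball : IsMaxOn (norm ∘ g x₀) (Metric.ball 0 1) (qmax x₀) := by
    intro q hq
    rcases eq_or_ne q 0 with rfl | hq0
    · exact hqle x₀ 0 (Metric.mem_closedBall_self (Real.exp_nonneg _))
    · have him := Function.Periodic.im_invQParam_pos_of_norm_lt_one hN (mem_ball_zero_iff.mp hq) hq0
      have h2 := heval x₀ ⟨_, him⟩
      rw [Function.Periodic.qParam_right_inv hN.ne' hq0] at h2
      show ‖g x₀ q‖ ≤ _
      rw [h2]
      exact hbound _
  have hconst := Complex.eqOn_of_isPreconnected_of_isMaxOn_norm (convex_ball (0 : ℂ) 1).isPreconnected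
    Metric.isOpen_ball (fun q hq => (hdiff x₀ q (mem_ball_zero_iff.mp hq)).differentiableWithinAt)
    (mem_ball_zero_iff.mpr (hK _ (hqmax x₀))) hball
  have hEconst : ∀ w : ℍ, E w = g x₀ (qmax x₀) := by
    intro w
    have hw : Function.Periodic.qParam (N : ℝ) ((rep x₀ • w : ℍ) : ℂ) ∈ Metric.ball (0 : ℂ) 1 :=
      mem_ball_zero_iff.mpr (Function.Periodic.norm_qParam_lt_one hN (rep x₀ • w).im_pos)
    have h := (heval x₀ (rep x₀ • w)).symm.trans (hconst hw)
    rwa [inv_smul_smul] at h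
  refine DFunLike.ext _ _ fun τ => ?_
  have h1 := (hF.1 τ).cexp
  have h2 : HasDerivAt (fun z => Complex.exp ((F ∘ ofComplex) z)) 0 (τ : ℂ) := by
    refine (hasDerivAt_const (τ : ℂ) (g x₀ (qmax x₀))).congr_of_eventuallyEq
      (Eventually.of_forall fun z => ?_)
    exact hEconst (ofComplex z)
  have := h1.unique h2
  simpa [Complex.exp_ne_zero] using this

end Fermat.Agent.EichlerShimura
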