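import Mathlib.LinearAlgebra.Trace
import Mathlib.Tactic
import Fermat.Agent.EichlerShimura.Shapiro

/-!
The upper bound `dim parabolicHoms ≤ 2 * genusFormula`.
-/

set_option autoImplicit false

open CongruenceSubgroup Matrix
open scoped MatrixGroups

namespace Fermat.Agent.EichlerShimura

open Gamma0Count ModularCurve.Period

variable {N : ℕ}

/-- Pull back of functions on the coset space. -/
noncomputable def pull (g : SL(2, ℤ)) : (CosetSpace N → ℂ) →ₗ[ℂ] (CosetSpace N → ℂ) :=
  LinearMap.funLeft ℂ ℂ (g • ·)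

@[simp] lemma pull_apply (g : SL(2, ℤ)) (v : CosetSpace N → ℂ) (x : CosetSpace N) :
    pull g v x = v (g • x) := rfl

/-- The element of order three `S T`. -/
def elU : SL(2, ℤ) := ModularGroup.S * ModularGroup.T

lemma elU_smul_cube (x : CosetSpace N) : elU • elU • elU • x = x := ST_smul_cube x

lemma elU_sq_smul_eq_iff (x : CosetSpace N) : elU • elU • x = x ↔ elU • x = x := by
  constructor
  · intro h
    conv_lhs => rw [← h]
    exact elU_smul_cube x
  · intro h
    rw [h, h]

/-- The space of possible values at `S`. -/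
noncomputable def spaceTwo (N : ℕ) : Submodule ℂ (CosetSpace N → ℂ) :=
  LinearMap.ker (LinearMap.id + pull ModularGroup.S)

/-- The space of possible values at `S T`. -/
noncomputable def spaceThree (N : ℕ) : Submodule ℂ (CosetSpace N → ℂ) :=
  LinearMap.ker (LinearMap.id + pull elU + pull elU ∘ₗ pull elU)

lemma mem_spaceTwo {v : CosetSpace N → ℂ} :
    v ∈ spaceTwo N ↔ ∀ x, v x + v (ModularGroup.S • x) = 0 := by
  rw [spaceTwo, LinearMap.mem_ker, funext_iff]; rfl

lemma mem_spaceThree {v : CosetSpace N → ℂ} :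
    v ∈ spaceThree N ↔ ∀ x, v x + v (elU • x) + v (elU • elU • x) = 0 := by
  rw [spaceThree, LinearMap.mem_ker, funext_iff]; rfl

lemma trace_funLeft {X : Type*} [Fintype X] (e : X → X) :
    LinearMap.trace ℂ (X → ℂ) (LinearMap.funLeft ℂ ℂ e) = (Nat.card {x // e x = x} : ℂ) := by
  classical
  rw [LinearMap.trace_eq_matrix_trace ℂ (Pi.basisFun ℂ X), Matrix.trace]
  simp only [Matrix.diag, LinearMap.toMatrix_apply, Pi.basisFun_apply, Pi.basisFun_repr,
    LinearMap.funLeft_apply, Pi.single_apply]
  rw [Finset.sum_boole, Nat.card_eq_fintype_card, Fintype.card_subtype]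

variable [NeZero N]

lemma finrank_spaceTwo :
    2 * Module.finrank ℂ (spaceTwo N) + ModularCurve.nuTwo N = ModularCurve.dedekindPsi N := by
  set P : (CosetSpace N → ℂ) →ₗ[ℂ] (CosetSpace N → ℂ) :=
    (1 / 2 : ℂ) • (LinearMap.id - pull ModularGroup.S)
  have hP : LinearMap.IsProj (spaceTwo N) P := by
    constructor
    · intro v
      rw [mem_spaceTwo]
      intro x
      simp [P, S_smul_S_smul]
      ring
    · intro v hv
      funext x
      have := (mem_spaceTwo.mp hv) x
      simp [P]
      linear_combination (-(1 / 2) : ℂ) * this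
  have h := hP.trace
  rw [map_smul, map_sub, ← Module.End.one_eq_id, LinearMap.trace_one, pull, trace_funLeft,
    card_fixedBy_S, Module.finrank_pi, smul_eq_mul, ← Nat.card_eq_fintype_card,
    card_cosetSpace] at h
  have h2 : ((2 * Module.finrank ℂ (spaceTwo N) + ModularCurve.nuTwo N : ℕ) : ℂ)
      = (ModularCurve.dedekindPsi N : ℂ) := by
    push_cast
    linear_combination (-2 : ℂ) * h
  exact_mod_cast h2

lemma finrank_spaceThree :
    3 * Module.finrank ℂ (spaceThree N) + 2 * ModularCurve.nuThree N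
      = 2 * ModularCurve.dedekindPsi N := by
  set P : (CosetSpace N → ℂ) →ₗ[ℂ] (CosetSpace N → ℂ) :=
    (1 / 3 : ℂ) • ((2 : ℂ) • LinearMap.id - pull elU - pull elU ∘ₗ pull elU)
  have hP : LinearMap.IsProj (spaceThree N) P := by
    constructor
    · intro v
      rw [mem_spaceThree]
      intro x
      simp [P, elU_smul_cube]
      ring
    · intro v hv
      funext x
      have := (mem_spaceThree.mp hv) x
      simp [P]
      linear_combination (-(1 / 3) : ℂ) * this
  have h := hP.trace
  have hsq : pull (N := N) elU ∘ₗ pull elU = LinearMap.funLeft ℂ ℂ (fun x => elU • elU • x) := rfl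
  rw [map_smul, map_sub, map_sub, map_smul, ← Module.End.one_eq_id, LinearMap.trace_one, hsq,
    trace_funLeft, pull, trace_funLeft,
    Nat.card_congr (Equiv.subtypeEquivRight (elU_sq_smul_eq_iff (N := N))),
    show Nat.card {x : CosetSpace N // elU • x = x} = ModularCurve.nuThree N from card_fixedBy_ST N,
    Module.finrank_pi, smul_eq_mul, smul_eq_mul, ← Nat.card_eq_fintype_card,
    card_cosetSpace] at h
  have h2 : ((3 * Module.finrank ℂ (spaceThree N) + 2 * ModularCurve.nuThree N : ℕ) : ℂ)
      = ((2 * ModularCurve.dedekindPsi N : ℕ) : ℂ) := by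
    push_cast
    linear_combination (-3 : ℂ) * h
  exact_mod_cast h2

omit [NeZero N] in
lemma shapiro_neg_one (φ : Additive (Gamma0 N) →+ ℂ) (x : CosetSpace N) :
    shapiro (-1) φ x = 0 := by
  have h := (isCocycle_shapiro φ) (-1) (-1) x
  simp only [neg_mul_neg, mul_one, neg_one_smul_coset] at h
  rw [(isCocycle_shapiro φ).map_one] at h
  linear_combination (-(1 / 2) : ℂ) * h

omit [NeZero N] in
lemma fullCocycle_neg_one (p : (Additive (Gamma0 N) →+ ℂ) × (CosetSpace N → ℂ))
    (x : CosetSpace N) : fullCocycle (-1) p x = 0 := by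
  rw [← Prod.mk.eta (p := p), fullCocycle_apply, neg_one_smul_coset, sub_self, add_zero]
  exact shapiro_neg_one p.1 x

omit [NeZero N] in
lemma fullCocycle_S_mem (p : (Additive (Gamma0 N) →+ ℂ) × (CosetSpace N → ℂ)) :
    fullCocycle ModularGroup.S p ∈ spaceTwo N := by
  rw [mem_spaceTwo]
  intro x
  have h := isCocycle_fullCocycle p ModularGroup.S ModularGroup.S x
  simp only [S_mul_S, fullCocycle_neg_one] at h
  linear_combination -h

omit [NeZero N] in
lemma fullCocycle_U_mem (p : (Additive (Gamma0 N) →+ ℂ) × (CosetSpace N → ℂ)) :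
    fullCocycle elU p ∈ spaceThree N := by
  rw [mem_spaceThree]
  intro x
  have h := isCocycle_fullCocycle p (elU * elU) elU x
  have h' := isCocycle_fullCocycle p elU elU (elU • x)
  simp only [elU, ST_cube, fullCocycle_neg_one] at h h' ⊢
  linear_combination -h - h'

omit [NeZero N] in
lemma fullCocycle_T (p : (Additive (Gamma0 N) →+ ℂ) × (CosetSpace N → ℂ)) (x : CosetSpace N) :
    fullCocycle ModularGroup.T p x
      = fullCocycle elU p x + fullCocycle ModularGroup.S p (elU • x) := by
  have h := isCocycle_fullCocycle p ModularGroup.S ModularGroup.T x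
  have h2 := (mem_spaceTwo.mp (fullCocycle_S_mem p)) (elU • x)
  simp only [elU, ← T_smul_eq] at h h2 ⊢
  linear_combination -h - h2

omit [NeZero N] in
lemma T_pow_rep_trace (x : CosetSpace N) :
    ((rep x)⁻¹ * (ModularGroup.T ^ N * rep x) : SL(2, ℤ)).1.trace ^ 2 = 4 := by
  have h : ((rep x)⁻¹ * (ModularGroup.T ^ N * rep x) : SL(2, ℤ)).1.trace
      = (ModularGroup.T ^ (N : ℤ) : SL(2, ℤ)).1.trace := by
    rw [zpow_natCast, Matrix.SpecialLinearGroup.coe_mul, Matrix.trace_mul_comm,
      ← Matrix.SpecialLinearGroup.coe_mul, mul_assoc, mul_inv_cancel, mul_one]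
  rw [h, ModularGroup.coe_T_zpow, Matrix.trace_fin_two_of]
  norm_num

omit [NeZero N] in
lemma T_pow_smul (x : CosetSpace N) : ModularGroup.T ^ N • x = x := by
  obtain ⟨g, rfl⟩ := Quotient.exists_rep x
  show ((ModularGroup.T ^ N * g : SL(2, ℤ)) : CosetSpace N) = (g : CosetSpace N)
  rw [QuotientGroup.eq]
  have hmem : (ModularGroup.T ^ N : SL(2, ℤ)) ∈ Gamma N := by
    have := ModularGroup_T_pow_mem_Gamma (N : ℤ) (N : ℤ) dvd_rfl
    simpa using this
  have hle : Gamma N ≤ Gamma0 N := fun γ hγ => Gamma0_mem.mpr (Gamma_mem.mp hγ).2.2.1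
  refine hle ?_
  have := (Gamma_normal N).conj_mem _ (inv_mem hmem) g⁻¹
  convert this using 1
  group

omit [NeZero N] in
lemma sum_T_smul_eq_zero {φ : Additive (Gamma0 N) →+ ℂ} (hφ : φ ∈ parabolicHoms ℂ (Gamma0 N) ℂ)
    (v : CosetSpace N → ℂ) (x : CosetSpace N) :
    ∑ i ∈ Finset.range N, fullCocycle ModularGroup.T (φ, v) (ModularGroup.T ^ i • x) = 0 := by
  have hsum : ∀ m : ℕ, fullCocycle (ModularGroup.T ^ m) (φ, v) x
      = ∑ i ∈ Finset.range m, fullCocycle ModularGroup.T (φ, v) (ModularGroup.T ^ i • x) := by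
    intro m
    induction m with
    | zero => simpa using (isCocycle_fullCocycle (φ, v)).map_one x
    | succ m ih =>
      rw [Finset.sum_range_succ, ← ih, pow_succ', add_comm]
      exact isCocycle_fullCocycle (φ, v) ModularGroup.T (ModularGroup.T ^ m) x
  rw [← hsum N, fullCocycle_apply, T_pow_smul, sub_self, add_zero]
  refine (mem_parabolicHoms_iff.mp hφ) _ ?_
  show ((rep (ModularGroup.T ^ N • x))⁻¹ * (ModularGroup.T ^ N * rep x) : SL(2, ℤ)).1.trace ^ 2 = 4
  rw [T_pow_smul]
  exact T_pow_rep_trace x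

/-- Orbit sums under `T`. -/
noncomputable def cuspSum (N : ℕ) [NeZero N] : (CosetSpace N → ℂ) →ₗ[ℂ] (CuspSpace N → ℂ) :=
  open scoped Classical in
  { toFun := fun G o => ∑ x : CosetSpace N, if toCusp x = o then G x else 0
    map_add' := fun G H => funext fun o => by
      simp only [Pi.add_apply, ← Finset.sum_add_distrib]
      exact Finset.sum_congr rfl fun x _ => by split_ifs <;> simp
    map_smul' := fun c G => funext fun o => by
      simp only [Pi.smul_apply, smul_eq_mul, RingHom.id_apply, Finset.mul_sum]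
      exact Finset.sum_congr rfl fun x _ => by split_ifs <;> simp }

lemma cuspSum_apply [DecidableEq (CuspSpace N)] (G : CosetSpace N → ℂ) (o : CuspSpace N) :
    cuspSum N G o = ∑ x : CosetSpace N, if toCusp x = o then G x else 0 := by
  simp only [cuspSum, LinearMap.coe_mk, AddHom.coe_mk]
  refine Finset.sum_congr rfl fun x _ => ?_
  split_ifs <;> rfl

lemma cuspSum_pull_T (G : CosetSpace N → ℂ) : cuspSum N (pull ModularGroup.T G) = cuspSum N G := by
  classical
  funext o
  rw [cuspSum_apply, cuspSum_apply]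
  exact Fintype.sum_equiv (MulAction.toPerm ModularGroup.T) _ _
    (fun x => by simp [toCusp_T_smul])

lemma cuspSum_single [DecidableEq (CosetSpace N)] [DecidableEq (CuspSpace N)]
    (x : CosetSpace N) :
    cuspSum N (Pi.single x 1) = Pi.single (toCusp x) 1 := by
  funext o
  rw [cuspSum_apply, Finset.sum_eq_single x (fun y _ hy => by simp [Pi.single_eq_of_ne hy])
    (by simp)]
  simp [Pi.single_apply, eq_comm]

lemma cuspSum_eq_zero {G : CosetSpace N → ℂ}
    (hG : ∀ x, ∑ i ∈ Finset.range N, G (ModularGroup.T ^ i • x) = 0) : cuspSum N G = 0 := by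
  classical
  have hpow : ∀ i : ℕ, cuspSum N (pull (ModularGroup.T ^ i) G) = cuspSum N G := by
    intro i
    induction i with
    | zero =>
      congr 1
      funext x
      simp
    | succ i ih =>
      rw [← ih, ← cuspSum_pull_T (pull (ModularGroup.T ^ i) G)]
      congr 1
      funext x
      simp [pow_succ, mul_smul]
  have h0 : (∑ i ∈ Finset.range N, pull (ModularGroup.T ^ i) G) = 0 := by
    funext x
    simpa [Finset.sum_apply] using hG x
  have := congrArg (cuspSum N) h0
  rw [map_sum, map_zero, Finset.sum_congr rfl (fun i _ => hpow i), Finset.sum_const,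
    Finset.card_range, ← Nat.cast_smul_eq_nsmul ℂ] at this
  exact (smul_eq_zero.mp this).resolve_left (by exact_mod_cast NeZero.ne N)

/-- The map to functions on the cusps. -/
noncomputable def cuspMap (N : ℕ) [NeZero N] :
    (spaceTwo N × spaceThree N) →ₗ[ℂ] (CuspSpace N → ℂ) :=
  cuspSum N ∘ₗ LinearMap.coprod (pull elU ∘ₗ (spaceTwo N).subtype) (spaceThree N).subtype

lemma card_cusp_le_rank_cuspMap :
    ModularCurve.cuspCount N ≤ Module.finrank ℂ (LinearMap.range (cuspMap N)) + 1 := by
  classical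
  set R : Submodule ℂ (CuspSpace N → ℂ) := LinearMap.range (cuspMap N)
  let e : CuspSpace N → (CuspSpace N → ℂ) := fun o => Pi.single o 1
  have hU : ∀ x : CosetSpace N, e (toCusp (elU • x)) - e (toCusp x) ∈ R := by
    intro x
    have hw : (Pi.single (elU • x) 1 - Pi.single x 1 : CosetSpace N → ℂ) ∈ spaceThree N := by
      rw [mem_spaceThree]
      intro y
      have key : ∀ z : CosetSpace N,
          (Pi.single (elU • x) 1 : CosetSpace N → ℂ) (elU • z) = (Pi.single x 1 : _ → ℂ) z :=
        fun z => by simp [Pi.single_apply]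
      have k0 := key (elU • elU • y)
      rw [elU_smul_cube] at k0
      simp only [Pi.sub_apply]
      linear_combination key y + key (elU • y) + k0
    refine ⟨(0, ⟨_, hw⟩), ?_⟩
    simp [cuspMap, e, cuspSum_single]
  have hS : ∀ x : CosetSpace N,
      e (toCusp (elU⁻¹ • ModularGroup.S • x)) - e (toCusp (elU⁻¹ • x)) ∈ R := by
    intro x
    have hw : (Pi.single (ModularGroup.S • x) 1 - Pi.single x 1 : CosetSpace N → ℂ)
        ∈ spaceTwo N := by
      rw [mem_spaceTwo]
      intro y
      have key : ∀ z : CosetSpace N, (Pi.single (ModularGroup.S • x) 1 : CosetSpace N → ℂ)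
          (ModularGroup.S • z) = (Pi.single x 1 : _ → ℂ) z :=
        fun z => by simp [Pi.single_apply]
      have k0 := key (ModularGroup.S • y)
      rw [S_smul_S_smul] at k0
      simp only [Pi.sub_apply]
      linear_combination key y + k0
    refine ⟨(⟨_, hw⟩, 0), ?_⟩
    have hp : ∀ z : CosetSpace N,
        pull elU (Pi.single z 1) = (Pi.single (elU⁻¹ • z) 1 : CosetSpace N → ℂ) := by
      intro z; funext y
      simp [Pi.single_apply, smul_eq_iff_eq_inv_smul]
    simp [cuspMap, e, cuspSum_single, hp]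
  let K : Subgroup SL(2, ℤ) :=
    { carrier := {g | ∀ x : CosetSpace N, e (toCusp (g • x)) - e (toCusp x) ∈ R}
      one_mem' := fun x => by simp
      mul_mem' := fun {g h} hg hh x => by
        have := R.add_mem (hg (h • x)) (hh x)
        rwa [sub_add_sub_cancel, smul_smul] at this
      inv_mem' := fun {g} hg x => by
        have := R.neg_mem (hg (g⁻¹ • x))
        rwa [neg_sub, smul_inv_smul] at this }
  have hUK : elU ∈ K := hU
  have hSK : ModularGroup.S ∈ K := by
    intro x
    have h1 := hU (elU⁻¹ • x)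
    have h2 := hU (elU⁻¹ • ModularGroup.S • x)
    rw [smul_inv_smul] at h1 h2
    have := R.sub_mem (R.add_mem h2 (hS x)) h1
    convert this using 1
    abel
  have hK : ∀ g, g ∈ K := fun g => by
    have : K = ⊤ := by
      rw [eq_top_iff, ← _root_.SpecialLinearGroup.SL2Z_generators, Subgroup.closure_le]
      rintro g (rfl | rfl)
      · exact hSK
      · have := K.mul_mem (K.inv_mem hSK) hUK
        rwa [elU, inv_mul_cancel_left] at this
    exact this ▸ Subgroup.mem_top g
  set x₀ : CosetSpace N := ((1 : SL(2, ℤ)) : CosetSpace N)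
  have htop : R ⊔ Submodule.span ℂ {e (toCusp x₀)} = ⊤ := by
    refine eq_top_iff.mpr ?_
    rw [← (Pi.basisFun ℂ (CuspSpace N)).span_eq, Submodule.span_le]
    rintro _ ⟨o, rfl⟩
    obtain ⟨x, rfl⟩ := toCusp_surjective o
    obtain ⟨g, rfl⟩ := MulAction.exists_smul_eq SL(2, ℤ) x₀ x
    rw [SetLike.mem_coe, Pi.basisFun_apply]
    have := Submodule.add_mem_sup (hK g x₀) (Submodule.mem_span_singleton_self (R := ℂ) (e (toCusp x₀)))
    rwa [sub_add_cancel] at this
  have hle := Submodule.finrank_add_le_finrank_add_finrank R (Submodule.span ℂ {e (toCusp x₀)})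
  rw [htop, finrank_top, Module.finrank_pi, ← Nat.card_eq_fintype_card, card_cuspSpace] at hle
  have hspan : Module.finrank ℂ (Submodule.span ℂ {e (toCusp x₀)}) ≤ 1 := by
    refine (finrank_span_le_card (R := ℂ) ({e (toCusp x₀)} : Set (CuspSpace N → ℂ))).trans ?_
    simp
  omega

/-- The values at `S` and `ST`. -/
noncomputable def genValues (N : ℕ) :
    (parabolicHoms ℂ (Gamma0 N) ℂ × (CosetSpace N → ℂ)) →ₗ[ℂ] (spaceTwo N × spaceThree N) :=
  LinearMap.prod
    ((fullCocycle ModularGroup.S ∘ₗ
        LinearMap.prodMap (parabolicHoms ℂ (Gamma0 N) ℂ).subtype LinearMap.id).codRestrict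
      (spaceTwo N) fun _ => fullCocycle_S_mem _)
    ((fullCocycle elU ∘ₗ
        LinearMap.prodMap (parabolicHoms ℂ (Gamma0 N) ℂ).subtype LinearMap.id).codRestrict
      (spaceThree N) fun _ => fullCocycle_U_mem _)

omit [NeZero N] in
lemma genValues_eq_zero {p : parabolicHoms ℂ (Gamma0 N) ℂ × (CosetSpace N → ℂ)}
    (hp : genValues N p = 0) : p.1 = 0 ∧ ∀ x y, p.2 x = p.2 y := by
  have hS := congrArg (fun q => (q.1 : CosetSpace N → ℂ)) hp
  have hU := congrArg (fun q => (q.2 : CosetSpace N → ℂ)) hp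
  obtain ⟨h1, h2⟩ := fullCocycle_eq_zero (φ := (p.1 : Additive (Gamma0 N) →+ ℂ)) (v := p.2) hS hU
  exact ⟨Subtype.ext h1, h2⟩

lemma finite_parabolicHoms : FiniteDimensional ℂ (parabolicHoms ℂ (Gamma0 N) ℂ) :=
  FiniteDimensional.of_injective (genValues N ∘ₗ LinearMap.inl ℂ _ _)
    ((injective_iff_map_eq_zero _).mpr fun _ hφ => (genValues_eq_zero hφ).1)

/-- The parabolic part of `H¹(Γ₀(N), ℂ)` has dimension at most twice the genus. -/
theorem finrank_parabolicHoms_le (N : ℕ) [NeZero N] :
    (Module.finrank ℂ (parabolicHoms ℂ (Gamma0 N) ℂ) : ℚ) ≤ 2 * ModularCurve.genusFormula N := by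
  have := finite_parabolicHoms (N := N)
  have hker : Module.finrank ℂ (LinearMap.ker (genValues N)) ≤ 1 := by
    classical
    refine (LinearMap.finrank_le_finrank_of_injective
      (f := LinearMap.proj ((1 : SL(2, ℤ)) : CosetSpace N) ∘ₗ LinearMap.snd ℂ _ _ ∘ₗ
        (LinearMap.ker (genValues N)).subtype) ?_).trans (Module.finrank_self ℂ).le
    refine (injective_iff_map_eq_zero _).mpr ?_
    rintro ⟨p, hp⟩ h0
    obtain ⟨h1, h2⟩ := genValues_eq_zero hp
    exact Subtype.ext (Prod.ext h1 (funext fun x => (h2 x _).trans h0))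
  have hrange : LinearMap.range (genValues N) ≤ LinearMap.ker (cuspMap N) := by
    rintro _ ⟨⟨φ, v⟩, rfl⟩
    rw [LinearMap.mem_ker]
    refine cuspSum_eq_zero fun x => ?_
    refine Eq.trans (Finset.sum_congr rfl fun i _ => ?_) (sum_T_smul_eq_zero φ.2 v x)
    rw [fullCocycle_T]
    exact add_comm _ _
  have h1 := LinearMap.finrank_range_add_finrank_ker (genValues N)
  have h2 := LinearMap.finrank_range_add_finrank_ker (cuspMap N)
  have h3 := Submodule.finrank_mono hrange
  have h4 := card_cusp_le_rank_cuspMap (N := N)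
  have h5 := finrank_spaceTwo (N := N)
  have h6 := finrank_spaceThree (N := N)
  rw [Module.finrank_prod, Module.finrank_pi, ← Nat.card_eq_fintype_card, card_cosetSpace] at h1
  rw [Module.finrank_prod] at h2
  have key : 6 * Module.finrank ℂ (parabolicHoms ℂ (Gamma0 N) ℂ) + 3 * ModularCurve.nuTwo N
      + 4 * ModularCurve.nuThree N + 6 * ModularCurve.cuspCount N
      ≤ ModularCurve.dedekindPsi N + 12 := by omega
  have keyQ : ((6 * Module.finrank ℂ (parabolicHoms ℂ (Gamma0 N) ℂ) + 3 * ModularCurve.nuTwo N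
      + 4 * ModularCurve.nuThree N + 6 * ModularCurve.cuspCount N : ℕ) : ℚ)
      ≤ ((ModularCurve.dedekindPsi N + 12 : ℕ) : ℚ) := Nat.cast_le.mpr key
  push_cast at keyQ
  rw [ModularCurve.genusFormula]
  linarith

end Fermat.Agent.EichlerShimura
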