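import Mathlib.Analysis.Complex.Conformal
import Mathlib.Analysis.Calculus.Deriv.Star
import Fermat.Prelude.Def_ModularCurve_PeriodHomPair
import Mathlib.NumberTheory.ModularForms.Basic

/-!
The involution `f(τ) ↦ conj (f (-conj τ))` on cusp forms for `Γ₀(N)`.
-/

set_option autoImplicit false

open CongruenceSubgroup UpperHalfPlane Filter Topology ConjAct
open scoped MatrixGroups ModularForm ComplexConjugate Pointwise

namespace Fermat.Agent.EichlerShimura

open ModularCurve ModularCurve.Period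

variable {N : ℕ}

lemma J_mul_mapGL_mul_J (γ : SL(2, ℤ)) :
    J * (γ : GL (Fin 2) ℝ) * J = ((jConjSL γ : SL(2, ℤ)) : GL (Fin 2) ℝ) := by
  ext i j
  fin_cases i <;> fin_cases j <;>
    simp [J, Matrix.vecMul, dotProduct, Matrix.mul_apply, Fin.sum_univ_two]

lemma J_smul_sl_smul (γ : SL(2, ℤ)) (τ : ℍ) : J • γ • τ = jConjSL γ • J • τ := by
  show J • ((γ : GL (Fin 2) ℝ) • τ) = ((jConjSL γ : SL(2, ℤ)) : GL (Fin 2) ℝ) • J • τ
  rw [← J_mul_mapGL_mul_J, smul_smul, smul_smul, mul_assoc _ J J, ← sq, J_sq, mul_one]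

lemma conj_J_Gamma0 :
    toConjAct J⁻¹ • (Gamma0 N : Subgroup (GL (Fin 2) ℝ)) = (Gamma0 N : Subgroup (GL (Fin 2) ℝ)) := by
  have hJ : (J : GL (Fin 2) ℝ)⁻¹ = J := inv_eq_of_mul_eq_one_right (by rw [← sq, J_sq])
  rw [hJ]
  ext x
  rw [Subgroup.mem_pointwise_smul_iff_inv_smul_mem, ← toConjAct_inv, hJ, toConjAct_smul, hJ]
  constructor
  · rintro ⟨γ, hγ, h⟩
    refine ⟨jConjSL γ, jConjSL_mem_Gamma0 hγ, ?_⟩
    refine (J_mul_mapGL_mul_J γ).symm.trans ?_
    rw [show ((γ : SL(2, ℤ)) : GL (Fin 2) ℝ) = J * x * J from h]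
    simp only [mul_assoc]
    rw [← sq, J_sq, mul_one, ← mul_assoc, ← sq, J_sq, one_mul]
  · rintro ⟨γ, hγ, rfl⟩
    exact ⟨jConjSL γ, jConjSL_mem_Gamma0 hγ, (J_mul_mapGL_mul_J γ).symm⟩

/-- The form `τ ↦ conj (f (-conj τ))`. -/
noncomputable def starForm (f : CuspForm (Gamma0 N) 2) : CuspForm (Gamma0 N) 2 where
  toFun := ⇑f ∣[(2 : ℤ)] J
  slash_action_eq' γ hγ :=
    (CuspForm.translate f J).slash_action_eq' γ (by rwa [conj_J_Gamma0])
  holo' := (CuspForm.translate f J).holo'
  zero_at_cusps' hc := (CuspForm.translate f J).zero_at_cusps' (by rwa [conj_J_Gamma0])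

lemma starForm_apply (f : CuspForm (Gamma0 N) 2) (τ : ℍ) :
    starForm f τ = conj (f (J • τ)) := by
  show (⇑f ∣[(2 : ℤ)] J) τ = _
  rw [ModularForm.slash_apply]
  simp

lemma J_smul_J_smul (τ : ℍ) : J • J • τ = τ := by
  rw [smul_smul, ← sq, J_sq, one_smul]

lemma starForm_starForm (f : CuspForm (Gamma0 N) 2) : starForm (starForm f) = f := by
  ext τ
  rw [starForm_apply, starForm_apply, J_smul_J_smul, Complex.conj_conj]

lemma starForm_add (f g : CuspForm (Gamma0 N) 2) :
    starForm (f + g) = starForm f + starForm g := by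
  ext τ
  simp [starForm_apply]

lemma starForm_smul (c : ℂ) (f : CuspForm (Gamma0 N) 2) :
    starForm (c • f) = conj c • starForm f := by
  ext τ
  simp [starForm_apply]

lemma J_smul_im (τ : ℍ) : (J • τ).im = τ.im := by
  rw [← coe_im, coe_J_smul]; simp

lemma tendsto_J_smul_atImInfty : Tendsto (fun w : ℍ => J • w) atImInfty atImInfty := by
  rw [atImInfty, tendsto_comap_iff]
  simp only [Function.comp_def, J_smul_im]
  exact tendsto_comap

lemma hasEquivariantPrimitive_starForm {f : CuspForm (Gamma0 N) 2} {F : ℍ → ℂ}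
    (hF : HasEquivariantPrimitive N f F) :
    HasEquivariantPrimitive N (starForm f) (fun τ => -conj (F (J • τ))) := by
  refine ⟨fun τ => ?_, ?_, fun γ => ?_, fun δ => ?_⟩
  · have h1 := hF.1 (J • τ)
    rw [coe_J_smul] at h1
    have h2 : HasDerivAt (fun z => (F ∘ ofComplex) (-z)) (-f (J • τ)) (conj (τ : ℂ)) := by
      simpa [Function.comp_def] using h1.comp (conj (τ : ℂ)) (hasDerivAt_neg (conj (τ : ℂ)))
    have h3 := h2.conj_conj.neg
    rw [Complex.conj_conj, map_neg, neg_neg, ← starForm_apply] at h3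
    refine h3.congr_of_eventuallyEq ?_
    filter_upwards [(isOpen_lt continuous_const Complex.continuous_im).mem_nhds τ.im_pos]
      with z hz
    have : J • ofComplex z = ofComplex (-conj z) := by
      rw [J_smul, ofComplex_apply_of_im_pos hz]
    simp [Function.comp_apply, this]
  · have := ((Complex.continuous_conj.tendsto 0).comp (hF.2.1.comp tendsto_J_smul_atImInfty)).neg
    simpa [Function.comp_def] using this
  · obtain ⟨c, hc⟩ := hF.2.2.1 (jConjGamma0 N γ)
    refine ⟨-conj c, fun z => ?_⟩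
    show -conj (F (J • (γ : SL(2, ℤ)) • z)) - -conj (F (J • z)) = -conj c
    rw [J_smul_sl_smul, ← hc (J • z), jConjGamma0_coe, map_sub]
    ring
  · obtain ⟨L, hL⟩ := hF.2.2.2 (jConjSL δ)
    refine ⟨-conj L, ?_⟩
    have := ((Complex.continuous_conj.tendsto L).comp (hL.comp tendsto_J_smul_atImInfty)).neg
    simp only [J_smul_sl_smul]
    exact this

lemma period_starForm {f : CuspForm (Gamma0 N) 2} {F : ℍ → ℂ}
    (hF : HasEquivariantPrimitive N f F) (γ : Gamma0 N) :
    (hasEquivariantPrimitive_starForm hF).2.2.1.period γ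
      = -conj (hF.2.2.1.period (jConjGamma0 N γ)) := by
  rw [← (hasEquivariantPrimitive_starForm hF).2.2.1.sub_eq_period γ UpperHalfPlane.I,
    ← hF.2.2.1.sub_eq_period (jConjGamma0 N γ) (J • UpperHalfPlane.I),
    J_smul_sl_smul, jConjGamma0_coe, map_sub]
  ring

end Fermat.Agent.EichlerShimura
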