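import Fermat.Prelude.Def_ModularCurve_PeriodHomPair
import Fermat.Agent.EichlerShimura.Core
import Fermat.Agent.EichlerShimura.Star
import Fermat.Agent.EichlerShimura.DimBound

/-!
Eichler–Shimura, given the existence, uniqueness and linearity of periods.
-/

set_option autoImplicit false

open CongruenceSubgroup UpperHalfPlane ModularCurve ModularCurve.Period
open scoped MatrixGroups ComplexConjugate

namespace Fermat.Agent.EichlerShimura

variable {N : ℕ}

/-- The basic facts about periods of weight two cusp forms. -/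
structure PeriodFacts (N : ℕ) : Prop where
  exists_primitive : ∀ f : CuspForm (Gamma0 N) 2, ∃ F, HasEquivariantPrimitive N f F
  periodMap_eq : ∀ (f : CuspForm (Gamma0 N) 2) (F : ℍ → ℂ) (hF : HasEquivariantPrimitive N f F),
    periodMap N f = hF.2.2.1.periodHom
  linear : ExistsPeriodMapLinear N
  parabolic : ∀ f : CuspForm (Gamma0 N) 2, periodMap N f ∈ parabolicHoms ℂ (Gamma0 N) ℂ

namespace PeriodFacts

variable (P : PeriodFacts N)
include P

lemma periodMap_starForm (f : CuspForm (Gamma0 N) 2) (γ : Gamma0 N) :
    periodMap N (starForm f) (Additive.ofMul γ)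
      = -conj (periodMap N f (Additive.ofMul (jConjGamma0 N γ))) := by
  obtain ⟨F, hF⟩ := P.exists_primitive f
  rw [P.periodMap_eq _ _ (hasEquivariantPrimitive_starForm hF), P.periodMap_eq _ _ hF,
    IsEquivariantPrimitive.periodHom_apply, IsEquivariantPrimitive.periodHom_apply,
    period_starForm hF]

lemma periodHomPair_apply (f g : CuspForm (Gamma0 N) 2) (γ : Gamma0 N) :
    periodHomPair N (f, g) (Additive.ofMul γ)
      = periodMap N (f + g) (Additive.ofMul γ)
        + periodMap N (f - g) (Additive.ofMul (jConjGamma0 N γ)) := by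
  obtain ⟨pml, hpml, h⟩ := periodHomPair_def N P.linear
  rw [h, ← hpml (f + g), ← hpml (f - g), map_add, map_sub]
  simp only [LinearMap.coprod_apply, LinearMap.comp_apply, LinearMap.add_apply,
    LinearMap.sub_apply, LinearMap.id_apply, AddMonoidHom.add_apply, AddMonoidHom.sub_apply,
    charInvolution_apply, toMul_ofMul]
  ring

lemma periodHomPair_mem (p : CuspForm (Gamma0 N) 2 × CuspForm (Gamma0 N) 2) :
    periodHomPair N p ∈ parabolicHoms ℂ (Gamma0 N) ℂ := by
  obtain ⟨pml, hpml, h⟩ := periodHomPair_def N P.linear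
  have hm : ∀ f, pml f ∈ parabolicHoms ℂ (Gamma0 N) ℂ := fun f => hpml f ▸ P.parabolic f
  rw [h]
  exact add_mem
    (add_mem (hm p.1) (charInvolution_mem_parabolicHoms N ℂ ℂ (hm p.1)))
    (sub_mem (hm p.2) (charInvolution_mem_parabolicHoms N ℂ ℂ (hm p.2)))

variable [NeZero N]

lemma eq_zero_of_re_periodMap_eq_zero {f : CuspForm (Gamma0 N) 2}
    (hf : ∀ γ : Gamma0 N, (periodMap N f (Additive.ofMul γ)).re = 0) : f = 0 := by
  obtain ⟨F, hF⟩ := P.exists_primitive f
  refine eq_zero_of_re_period_eq_zero hF fun γ => ?_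
  have := hf γ
  rwa [P.periodMap_eq _ _ hF, IsEquivariantPrimitive.periodHom_apply] at this

theorem periodHomPair_injective : Function.Injective (periodHomPair N) := by
  obtain ⟨pml, hpml, -⟩ := periodHomPair_def N P.linear
  refine (injective_iff_map_eq_zero _).mpr ?_
  rintro ⟨f, g⟩ h
  have key : ∀ γ : Gamma0 N, periodMap N (f + g) (Additive.ofMul γ)
      = conj (periodMap N (starForm (f - g)) (Additive.ofMul γ)) := by
    intro γ
    have hγ := congrArg (fun φ : Additive (Gamma0 N) →+ ℂ => φ (Additive.ofMul γ)) h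
    simp only [P.periodHomPair_apply, AddMonoidHom.zero_apply] at hγ
    rw [P.periodMap_starForm, map_neg, Complex.conj_conj]
    linear_combination hγ
  have hhk : f + g = starForm (f - g) := by
    refine sub_eq_zero.mp (P.eq_zero_of_re_periodMap_eq_zero fun γ => ?_)
    rw [← hpml, map_sub, AddMonoidHom.sub_apply, hpml, hpml, key, Complex.sub_re, Complex.conj_re,
      sub_self]
  have h0 : f + g = 0 := by
    have hI : Complex.I • (f + g) = 0 := by
      refine P.eq_zero_of_re_periodMap_eq_zero fun γ => ?_
      have hreal := key γ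
      rw [← hhk] at hreal
      have him : (periodMap N (f + g) (Additive.ofMul γ)).im = 0 :=
        Complex.conj_eq_iff_im.mp hreal.symm
      rw [← hpml, map_smul, hpml]
      simp [him]
    exact (smul_eq_zero.mp hI).resolve_left Complex.I_ne_zero
  have h1 : f - g = 0 := by
    have := congrArg starForm hhk
    rw [starForm_starForm, h0] at this
    rw [← this]
    ext τ
    simp [starForm_apply]
  rw [Prod.mk_eq_zero]
  have hf : (2 : ℂ) • f = 0 := by
    rw [two_smul]
    have := congrArg₂ (· + ·) h0 h1
    simpa using this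
  have hf0 := (smul_eq_zero.mp hf).resolve_left two_ne_zero
  exact ⟨hf0, by simpa [hf0] using h0⟩

theorem finiteDimensional_cuspForm : FiniteDimensional ℂ (CuspForm (Gamma0 N) 2) := by
  have := finite_parabolicHoms (N := N)
  refine FiniteDimensional.of_injective
    (((periodHomPair N).codRestrict _ P.periodHomPair_mem) ∘ₗ LinearMap.inl ℂ _ _) ?_
  intro a b h
  exact LinearMap.inl_injective (P.periodHomPair_injective (congrArg Subtype.val h))

theorem two_mul_finrank_le :
    2 * Module.finrank ℂ (CuspForm (Gamma0 N) 2)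
      ≤ Module.finrank ℂ (parabolicHoms ℂ (Gamma0 N) ℂ) := by
  have := finite_parabolicHoms (N := N)
  have := P.finiteDimensional_cuspForm
  have := LinearMap.finrank_le_finrank_of_injective
    (f := (periodHomPair N).codRestrict _ P.periodHomPair_mem)
    (fun a b h => P.periodHomPair_injective (congrArg Subtype.val h))
  rw [Module.finrank_prod] at this
  omega

theorem finrank_le_genusFormula :
    (Module.finrank ℂ (CuspForm (Gamma0 N) 2) : ℚ) ≤ genusFormula N := by
  have h1 : ((2 * Module.finrank ℂ (CuspForm (Gamma0 N) 2) : ℕ) : ℚ)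
      ≤ (Module.finrank ℂ (parabolicHoms ℂ (Gamma0 N) ℂ) : ℚ) :=
    Nat.cast_le.mpr P.two_mul_finrank_le
  have h2 := finrank_parabolicHoms_le N
  push_cast at h1
  linarith

/-- Surjectivity, from the lower bound on the dimension. -/
theorem range_periodHomPair
    (hg : genusFormula N ≤ (Module.finrank ℂ (CuspForm (Gamma0 N) 2) : ℚ)) :
    LinearMap.range (periodHomPair N) = parabolicHoms ℂ (Gamma0 N) ℂ := by
  have := finite_parabolicHoms (N := N)
  have := P.finiteDimensional_cuspForm
  have hle : LinearMap.range (periodHomPair N) ≤ parabolicHoms ℂ (Gamma0 N) ℂ := by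
    rintro _ ⟨p, rfl⟩
    exact P.periodHomPair_mem p
  refine Submodule.eq_of_le_of_finrank_le hle ?_
  rw [LinearMap.finrank_range_of_inj P.periodHomPair_injective, Module.finrank_prod]
  have h2 := finrank_parabolicHoms_le N
  have : (Module.finrank ℂ (parabolicHoms ℂ (Gamma0 N) ℂ) : ℚ)
      ≤ ((Module.finrank ℂ (CuspForm (Gamma0 N) 2) + Module.finrank ℂ (CuspForm (Gamma0 N) 2) : ℕ) : ℚ) := by
    push_cast
    linarith
  exact_mod_cast this

end PeriodFacts

end Fermat.Agent.EichlerShimura
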