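import Mathlib.RingTheory.Coprime.Lemmas
import Fermat.Prelude.Def_ModularCurve_PeriodHomPair
import Fermat.Agent.HeckeFinite.WeightTwo
import Fermat.Agent.EichlerShimura.PairBasic

/-!
Existence, uniqueness, linearity and parabolicity of periods in weight two.
-/

set_option autoImplicit false

open CongruenceSubgroup UpperHalfPlane ModularCurve ModularCurve.Period Filter Topology
open scoped MatrixGroups ModularForm

namespace Fermat.Agent.EichlerShimura

open HeckeFinite

export HeckeFinite (exists_hasEquivariantPrimitive periodMap_mem_parabolicHoms)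

variable {N : ℕ} [NeZero N]

omit [NeZero N] in
lemma periodMap_eq_of_primitive (f : CuspForm (Gamma0 N) 2) (F : ℍ → ℂ)
    (hF : HasEquivariantPrimitive N f F) : periodMap N f = hF.2.2.1.periodHom :=
  periodMap_eq hF

omit [NeZero N] in
lemma hasEquivariantPrimitive_add {f g : CuspForm (Gamma0 N) 2} {F G : ℍ → ℂ}
    (hF : HasEquivariantPrimitive N f F) (hG : HasEquivariantPrimitive N g G) :
    HasEquivariantPrimitive N (f + g) (F + G) := by
  refine ⟨fun τ => ?_, by simpa [Pi.add_def] using hF.2.1.add hG.2.1, fun γ => ?_, fun δ => ?_⟩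
  · simpa using (IsPrim.add hF.1 hG.1) τ
  · refine ⟨hF.2.2.1.period γ + hG.2.2.1.period γ, fun z => ?_⟩
    simp only [Pi.add_apply, ← hF.2.2.1.sub_eq_period γ z, ← hG.2.2.1.sub_eq_period γ z]
    ring
  · obtain ⟨a, ha⟩ := hF.2.2.2 δ
    obtain ⟨b, hb⟩ := hG.2.2.2 δ
    exact ⟨a + b, ha.add hb⟩

omit [NeZero N] in
lemma hasEquivariantPrimitive_smul (c : ℂ) {f : CuspForm (Gamma0 N) 2} {F : ℍ → ℂ}
    (hF : HasEquivariantPrimitive N f F) :
    HasEquivariantPrimitive N (c • f) (c • F) := by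
  refine ⟨fun τ => ?_, by simpa [Pi.smul_def] using hF.2.1.const_smul c, fun γ => ?_, fun δ => ?_⟩
  · simpa using (IsPrim.const_smul c hF.1) τ
  · refine ⟨c * hF.2.2.1.period γ, fun z => ?_⟩
    simp only [Pi.smul_apply, smul_eq_mul, ← hF.2.2.1.sub_eq_period γ z]
    ring
  · obtain ⟨a, ha⟩ := hF.2.2.2 δ
    exact ⟨c • a, ha.const_smul c⟩

omit [NeZero N] in
/-- An element of trace `±2` is, up to sign, conjugate to a power of `T`. -/
lemma exists_conj_T_of_trace_sq_eq_four (γ : SL(2, ℤ))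
    (hγ : (γ : Matrix (Fin 2) (Fin 2) ℤ).trace ^ 2 = 4) :
    ∃ (δ : SL(2, ℤ)) (m : ℤ),
      γ = δ * ModularGroup.T ^ m * δ⁻¹ ∨ γ = -(δ * ModularGroup.T ^ m * δ⁻¹) := by
  obtain ⟨δ, hδ⟩ := exists_conj_lowerLeft_eq_zero γ hγ
  set M : SL(2, ℤ) := δ⁻¹ * γ * δ with hM
  have hMγ : γ = δ * M * δ⁻¹ := by rw [hM]; group
  have hdet : M 0 0 * M 1 1 = 1 := by
    have := M.det_coe
    rw [Matrix.det_fin_two, hδ, mul_zero, sub_zero] at this
    exact this
  rcases Int.mul_eq_one_iff_eq_one_or_neg_one.mp hdet with ⟨ha, hd⟩ | ⟨ha, hd⟩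
  · refine ⟨δ, M 0 1, Or.inl ?_⟩
    have : M = ModularGroup.T ^ (M 0 1) := by
      ext i j
      rw [ModularGroup.coe_T_zpow]
      fin_cases i <;> fin_cases j <;> simp [ha, hd, hδ]
    rwa [← this]
  · refine ⟨δ, -M 0 1, Or.inr ?_⟩
    have : M = -(ModularGroup.T ^ (-M 0 1)) := by
      ext i j
      rw [Matrix.SpecialLinearGroup.coe_neg, ModularGroup.coe_T_zpow]
      fin_cases i <;> fin_cases j <;> simp [ha, hd, hδ]
    rw [hMγ]
    conv_lhs => rw [this]
    rw [mul_neg, neg_mul]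

/-- The period facts hold at every level. -/
theorem periodFacts (N : ℕ) [NeZero N] : PeriodFacts N :=
  ⟨exists_hasEquivariantPrimitive, periodMap_eq_of_primitive, existsPeriodMapLinear N,
    periodMap_mem_parabolicHoms⟩

/-- The upper bound for `dim S₂(Γ₀(N))`. -/
theorem finrank_le_genusFormula (N : ℕ) [NeZero N] :
    (Module.finrank ℂ (CuspForm (Gamma0 N) 2) : ℚ) ≤ genusFormula N :=
  (periodFacts N).finrank_le_genusFormula

end Fermat.Agent.EichlerShimura
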