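import Mathlib.Analysis.Calculus.MeanValue
import Mathlib.Analysis.Calculus.Deriv.Comp
import Fermat.Prelude.Def_ModularCurve_PeriodMapBundled
import Fermat.Prelude.Def_ModularForm_HeckeOperatorForms
import Fermat.Prelude.Sol.S_ModularForm_heckeT_slash_eq_self_of_mem_Gamma0

/-!
Periods of `T_p f` and `U_p f` are sums of periods of `f`.
-/

set_option autoImplicit false

open CongruenceSubgroup UpperHalfPlane ModularCurve ModularCurve.Period Matrix.SpecialLinearGroup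
open scoped MatrixGroups OnePoint
open P2MW.S_ModularForm_heckeT_slash_eq_self_of_mem_Gamma0.ModularForm.HeckeSlashInvariance

namespace Fermat.Agent.EichlerShimura

variable {N : ℕ} {f g : CuspForm (Gamma0 N) 2} {F G : ℍ → ℂ}

/-- A matrix acting on `ℍ` as an affine map `z ↦ a z + b`. -/
def IsAffineAt (α : GL (Fin 2) ℝ) (a : ℝ) (b : ℂ) : Prop :=
  0 < a ∧ ∀ τ : ℍ, ((α • τ : ℍ) : ℂ) = a * τ + b

lemma eq_of_hasDerivAt_zero {H : ℍ → ℂ} (hH : ∀ τ : ℍ, HasDerivAt (H ∘ ofComplex) 0 τ)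
    (z w : ℍ) : H z = H w := by
  have hs : IsOpen {z : ℂ | 0 < z.im} := isOpen_lt continuous_const Complex.continuous_im
  have hd : DifferentiableOn ℂ (H ∘ ofComplex) {z : ℂ | 0 < z.im} := fun x hx =>
    (hH ⟨x, hx⟩).differentiableAt.differentiableWithinAt
  have hd' : Set.EqOn (deriv (H ∘ ofComplex)) 0 {z : ℂ | 0 < z.im} := fun x hx =>
    (hH ⟨x, hx⟩).deriv
  have := hs.is_const_of_deriv_eq_zero (convex_halfSpace_im_gt 0).isPreconnected hd hd'
    (x := (z : ℂ)) (y := (w : ℂ)) z.im_pos w.im_pos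
  simpa using this

lemma hasDerivAt_comp_affine {α : GL (Fin 2) ℝ} {a : ℝ} {b : ℂ} (hα : IsAffineAt α a b)
    {F : ℍ → ℂ} {c : ℂ} {τ : ℍ} (hF : HasDerivAt (F ∘ ofComplex) c ((α • τ : ℍ) : ℂ)) :
    HasDerivAt ((fun w : ℍ => F (α • w)) ∘ ofComplex) ((a : ℂ) * c) (τ : ℂ) := by
  have hlin : HasDerivAt (fun z : ℂ => (a : ℂ) * z + b) ((a : ℂ) * 1) (τ : ℂ) :=
    ((hasDerivAt_id' (τ : ℂ)).const_mul _).add_const b
  rw [hα.2 τ] at hF
  have := hF.comp (τ : ℂ) hlin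
  rw [mul_one, mul_comm] at this
  refine this.congr_of_eventuallyEq ?_
  filter_upwards [(isOpen_lt continuous_const Complex.continuous_im).mem_nhds τ.im_pos] with z hz
  have hz' : α • ofComplex z = ofComplex ((a : ℂ) * z + b) := by
    have h := hα.2 (ofComplex z)
    rw [ofComplex_apply_of_im_pos hz] at h ⊢
    rw [← h, ofComplex_apply]
  simp only [Function.comp_apply, hz']

lemma isAffineAt_heckeMatrix {p : ℕ} (hp : p ≠ 0) (j : ℕ) :
    IsAffineAt (ModularForm.heckeMatrix p j) (p : ℝ)⁻¹ ((j : ℂ) / p) := by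
  refine ⟨inv_pos.mpr (by exact_mod_cast Nat.pos_of_ne_zero hp), fun τ => ?_⟩
  rw [ModularForm.coe_heckeMatrix_smul hp]
  push_cast
  ring

lemma isAffineAt_heckeDiagMatrix {p : ℕ} (hp : p ≠ 0) :
    IsAffineAt (ModularForm.heckeDiagMatrix p) (p : ℝ) 0 := by
  refine ⟨by exact_mod_cast Nat.pos_of_ne_zero hp, fun τ => ?_⟩
  rw [ModularForm.coe_heckeDiagMatrix_smul hp]
  simp

/-- The general transfer formula for periods. -/
theorem exists_period_eq_sum {ι : Type*} [Fintype ι] (α : ι → GL (Fin 2) ℝ) (a : ι → ℝ)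
    (b : ι → ℂ) (hα : ∀ i, IsAffineAt (α i) (a i) (b i))
    (hperm : ∀ γ : Gamma0 N, ∃ (σ : Equiv.Perm ι) (δ : ι → Gamma0 N),
      ∀ i, α i * mapGL ℝ (γ : SL(2, ℤ)) = mapGL ℝ (δ i : SL(2, ℤ)) * α (σ i))
    (hg : ∀ τ : ℍ, g τ = ∑ i, (a i : ℂ) * f (α i • τ))
    (hF : HasEquivariantPrimitive N f F) (hG : HasEquivariantPrimitive N g G) (γ : Gamma0 N) :
    ∃ δ : ι → Gamma0 N, hG.2.2.1.period γ = ∑ i, hF.2.2.1.period (δ i) := by
  obtain ⟨σ, δ, hδ⟩ := hperm γ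
  refine ⟨δ, ?_⟩
  have hconst : ∀ z w : ℍ, G z - ∑ i, F (α i • z) = G w - ∑ i, F (α i • w) := by
    intro z w
    refine eq_of_hasDerivAt_zero (H := fun z => G z - ∑ i, F (α i • z)) (fun τ => ?_) z w
    have h1 := (hG.1 τ).sub (HasDerivAt.fun_sum (u := Finset.univ)
      fun i _ => hasDerivAt_comp_affine (hα i) (hF.1 (α i • τ)))
    rw [← hg τ, sub_self] at h1
    exact h1
  have h := hconst ((γ : SL(2, ℤ)) • UpperHalfPlane.I) UpperHalfPlane.I
  have hterm : ∀ i, F (α i • ((γ : SL(2, ℤ)) • UpperHalfPlane.I))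
      = F (α (σ i) • UpperHalfPlane.I) + hF.2.2.1.period (δ i) := by
    intro i
    rw [show ((γ : SL(2, ℤ)) • UpperHalfPlane.I)
        = (mapGL ℝ (γ : SL(2, ℤ))) • UpperHalfPlane.I from rfl, smul_smul, hδ i, mul_smul]
    have := hF.2.2.1.sub_eq_period (δ i) (α (σ i) • UpperHalfPlane.I)
    rw [show ((δ i : SL(2, ℤ)) • (α (σ i) • UpperHalfPlane.I))
        = (mapGL ℝ (δ i : SL(2, ℤ))) • (α (σ i) • UpperHalfPlane.I) from rfl] at this
    linear_combination this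
  rw [Finset.sum_congr rfl (fun i _ => hterm i), Finset.sum_add_distrib,
    Equiv.sum_comp σ (fun i => F (α i • UpperHalfPlane.I))] at h
  rw [IsEquivariantPrimitive.period]
  linear_combination h

theorem exists_period_heckeULin [NeZero N] {p : ℕ} (hp : p ≠ 0) (hpN : p ∣ N)
    (hF : HasEquivariantPrimitive N f F)
    (hG : HasEquivariantPrimitive N (CuspForm.heckeULin 2 hpN f) G) (γ : Gamma0 N) :
    haveI : NeZero p := ⟨hp⟩
    ∃ δ : ZMod p → Gamma0 N, hG.2.2.1.period γ = ∑ x, hF.2.2.1.period (δ x) := by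
  have : NeZero p := ⟨hp⟩
  refine exists_period_eq_sum (fun x : ZMod p => ModularForm.heckeMatrix p x.val)
    (fun _ => (p : ℝ)⁻¹) (fun x => (x.val : ℂ) / p)
    (fun x => isAffineAt_heckeMatrix hp x.val) (fun γ => ?_) (fun τ => ?_) hF hG γ
  · have hcN : (N : ℤ) ∣ (γ : SL(2, ℤ)) 1 0 :=
      (ZMod.intCast_zmod_eq_zero_iff_dvd _ _).mp (Gamma0_mem.mp γ.2)
    have hc : (p : ℤ) ∣ (γ : SL(2, ℤ)) 1 0 := (Int.natCast_dvd_natCast.mpr hpN).trans hcN
    choose g' hg' hmul using heckeMatrix_mul_of_dvd (p := p) (γ : SL(2, ℤ)) hc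
    refine ⟨affinePerm _ ((ZMod.intCast_zmod_eq_zero_iff_dvd _ _).mpr hc), fun x => ⟨g' x, ?_⟩,
      fun x => hmul x⟩
    rw [Gamma0_mem, hg']
    push_cast
    rw [Gamma0_mem.mp γ.2, mul_zero]
  · rw [CuspForm.heckeULin_apply_apply, ModularForm.heckeU_apply 2 hp,
      sum_range_eq_sum_zmod (p := p) (fun j => f (ModularForm.heckeMatrix p j • τ)), Finset.mul_sum]
    refine Finset.sum_congr rfl fun x _ => ?_
    push_cast
    rfl

theorem exists_period_heckeTLin {p : ℕ} (hp : p.Prime) (hpN : ¬ p ∣ N)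
    (hF : HasEquivariantPrimitive N f F)
    (hG : HasEquivariantPrimitive N (CuspForm.heckeTLin 2 hp hpN f) G) (γ : Gamma0 N) :
    haveI : NeZero p := ⟨hp.ne_zero⟩
    ∃ δ : OnePoint (ZMod p) → Gamma0 N, hG.2.2.1.period γ = ∑ x, hF.2.2.1.period (δ x) := by
  have : NeZero p := ⟨hp.ne_zero⟩
  have : Fact p.Prime := ⟨hp⟩
  refine exists_period_eq_sum (fun x : OnePoint (ZMod p) => heckeRep p x)
    (fun x => x.elim (p : ℝ) fun _ => (p : ℝ)⁻¹) (fun x => x.elim 0 fun j => (j.val : ℂ) / p)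
    (fun x => ?_) (fun γ => ?_) (fun τ => ?_) hF hG γ
  · cases x with
    | infty => exact isAffineAt_heckeDiagMatrix hp.ne_zero
    | coe j => exact isAffineAt_heckeMatrix hp.ne_zero j.val
  · have hcN : (N : ℤ) ∣ (γ : SL(2, ℤ)) 1 0 :=
      (ZMod.intCast_zmod_eq_zero_iff_dvd _ _).mp (Gamma0_mem.mp γ.2)
    choose g' hg' hmul using heckeRep_mul (p := p) hpN (γ : SL(2, ℤ)) hcN
    exact ⟨MulAction.toPerm (redMatrix p (γ : SL(2, ℤ))),
      fun x => ⟨g' x, Gamma0_mem.mpr ((ZMod.intCast_zmod_eq_zero_iff_dvd _ _).mpr (hg' x))⟩,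
      fun x => hmul x⟩
  · rw [CuspForm.heckeTLin_apply_apply, ModularForm.heckeT_apply 2 hp.ne_zero,
      sum_range_eq_sum_zmod (p := p) (fun j => f (ModularForm.heckeMatrix p j • τ)), Finset.mul_sum,
      add_comm]
    refine Eq.trans ?_ (Fintype.sum_option _).symm
    show (p : ℂ) ^ ((2 : ℤ) - 1) * f (ModularForm.heckeDiagMatrix p • τ) + _
      = ((p : ℝ) : ℂ) * f (heckeRep p ∞ • τ) + _
    congr 1
    · norm_num [heckeRep_infty]
    · refine Finset.sum_congr rfl fun x _ => ?_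
      show _ = (((p : ℝ)⁻¹ : ℝ) : ℂ) * f (heckeRep p (x : OnePoint (ZMod p)) • τ)
      rw [heckeRep_coe]
      push_cast
      rfl

end Fermat.Agent.EichlerShimura
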