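import Fermat.Prelude.Def_CuspForm_HeckeAlgebra
import Fermat.Agent.EichlerShimura.Star
import Fermat.Agent.HeckeEigen.QCoeff

/-!
The involution `starForm` conjugates `q`-coefficients and commutes with the Hecke algebra.
-/

set_option autoImplicit false

open CongruenceSubgroup UpperHalfPlane Function
open scoped MatrixGroups ComplexConjugate Real

namespace Fermat.Agent.EichlerShimura

open HeckeEigen

variable {N : ℕ} [NeZero N]

lemma qParam_J_smul (τ : ℍ) :
    conj (Periodic.qParam (1 : ℝ) ((J • τ : ℍ) : ℂ)) = Periodic.qParam (1 : ℝ) (τ : ℂ) := by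
  rw [coe_J_smul, Periodic.qParam, Periodic.qParam, ← Complex.exp_conj]
  congr 1
  simp [Complex.conj_ofReal, map_ofNat]

omit [NeZero N] in
lemma qCoeff_starForm (f : CuspForm (Gamma0 N) 2) (n : ℕ) :
    ModularFormClass.qCoeff (starForm f) n = conj (ModularFormClass.qCoeff f n) := by
  have hper := CongruenceSubgroup.one_mem_strictPeriods_Gamma0 N
  symm
  refine ModularFormClass.qExpansion_coeff_unique (f := starForm f) one_pos hper
    (c := fun m => conj (ModularFormClass.qCoeff f m)) (fun τ => ?_) n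
  have : Fact (IsCusp OnePoint.infty (Gamma0 N : Subgroup (GL (Fin 2) ℝ))) :=
    ⟨Subgroup.isCusp_of_mem_strictPeriods one_pos hper⟩
  have h := ModularForm.hasSum_qExpansion f one_pos hper (J • τ)
  have h' := Complex.hasSum_conj'.mpr h
  rw [← starForm_apply] at h'
  refine h'.congr_fun fun m => ?_
  rw [smul_eq_mul, map_mul, map_pow, qParam_J_smul]
  rfl

lemma starForm_heckeTLin {p : ℕ} (hp : p.Prime) (hpN : ¬ p ∣ N) (f : CuspForm (Gamma0 N) 2) :
    starForm (CuspForm.heckeTLin 2 hp hpN f) = CuspForm.heckeTLin 2 hp hpN (starForm f) := by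
  refine ext_qCoeff fun n => ?_
  rw [qCoeff_starForm, qCoeff_heckeTLin hp hpN, qCoeff_heckeTLin hp hpN, map_add,
    qCoeff_starForm]
  split_ifs
  · rw [map_mul, qCoeff_starForm, map_zpow₀, Complex.conj_natCast]
  · rw [map_zero]

lemma starForm_heckeULin {p : ℕ} (hp : p.Prime) (hpN : p ∣ N) (f : CuspForm (Gamma0 N) 2) :
    starForm (CuspForm.heckeULin 2 hpN f) = CuspForm.heckeULin 2 hpN (starForm f) := by
  refine ext_qCoeff fun n => ?_
  rw [qCoeff_starForm, qCoeff_heckeULin hp.ne_zero hpN, qCoeff_heckeULin hp.ne_zero hpN,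
    qCoeff_starForm]

/-- `starForm` as a semilinear map. -/
noncomputable def starLin (N : ℕ) :
    CuspForm (Gamma0 N) 2 →ₗ⋆[ℂ] CuspForm (Gamma0 N) 2 where
  toFun := starForm
  map_add' := starForm_add
  map_smul' := starForm_smul

theorem starForm_heckeAlgebra {t : Module.End ℂ (CuspForm (Gamma0 N) 2)}
    (ht : t ∈ CuspForm.heckeAlgebra N 2 ∅) (f : CuspForm (Gamma0 N) 2) :
    starForm (t f) = t (starForm f) := by
  induction ht using Algebra.adjoin_induction generalizing f with
  | mem x hx =>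
    rcases hx with ⟨ℓ, hℓ, hℓN, -, rfl⟩ | ⟨q, hqN, hq, -, rfl⟩
    · exact starForm_heckeTLin hℓ hℓN f
    · exact starForm_heckeULin hq hqN f
  | algebraMap r =>
    show starLin N ((algebraMap ℤ (Module.End ℂ (CuspForm (Gamma0 N) 2)) r) f) = _
    rw [eq_intCast, Module.End.intCast_apply, map_zsmul]
    rfl
  | add x y _ _ hx hy => rw [LinearMap.add_apply, starForm_add, hx, hy, LinearMap.add_apply]
  | mul x y _ _ hx hy => rw [Module.End.mul_apply, hx, hy, Module.End.mul_apply]

end Fermat.Agent.EichlerShimura
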