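import Mathlib.LinearAlgebra.LinearIndependent.BaseChange
import Mathlib.LinearAlgebra.FreeModule.PID
import Mathlib.GroupTheory.Schreier
import Fermat.Agent.EichlerShimura.PairBasic
import Fermat.Agent.EichlerShimura.HeckePeriod
import Fermat.Agent.EichlerShimura.StarHecke

/-!
The lattice of forms with integral real periods, and its consequences for the Hecke algebra.
-/

set_option autoImplicit false

open CongruenceSubgroup UpperHalfPlane ModularCurve ModularCurve.Period
open scoped MatrixGroups ComplexConjugate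

namespace Fermat.Agent.EichlerShimura

variable {N : ℕ} [NeZero N]

lemma fg_Gamma0 : Group.FG (Gamma0 N) := by
  have : Group.FG SL(2, ℤ) :=
    Group.fg_iff.mpr ⟨{ModularGroup.S, ModularGroup.T},
      _root_.SpecialLinearGroup.SL2Z_generators, by simp⟩
  infer_instance

/-- Forms whose periods have integral real part. -/
def IsIntegralRe (f : CuspForm (Gamma0 N) 2) : Prop :=
  ∀ γ : Gamma0 N, ∃ m : ℤ, (periodMap N f (Additive.ofMul γ)).re = m

/-- The real part of the periods, as an `ℝ`-linear map. -/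
def IsPeriodRe (L : CuspForm (Gamma0 N) 2 →ₗ[ℝ] (Gamma0 N → ℝ)) : Prop :=
  ∀ f γ, L f γ = (periodMap N f (Additive.ofMul γ)).re

namespace PeriodFacts

variable (P : PeriodFacts N)
include P

omit [NeZero N] in
lemma exists_periodReLin :
    ∃ L : CuspForm (Gamma0 N) 2 →ₗ[ℝ] (Gamma0 N → ℝ), IsPeriodRe L := by
  obtain ⟨pml, hpml⟩ := P.linear
  refine ⟨{ toFun := fun f γ => (pml f (Additive.ofMul γ)).re
            map_add' := fun f g => funext fun γ => ?_
            map_smul' := fun c f => funext fun γ => ?_ }, fun f γ => ?_⟩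
  · rw [map_add]
    rfl
  · rw [show (c • f) = (c : ℂ) • f from rfl, map_smul]
    show ((c : ℂ) * pml f (Additive.ofMul γ)).re = c * (pml f (Additive.ofMul γ)).re
    rw [Complex.re_ofReal_mul]
  · show (pml f (Additive.ofMul γ)).re = _
    rw [hpml]

variable (hg : genusFormula N ≤ (Module.finrank ℂ (CuspForm (Gamma0 N) 2) : ℚ))
include hg

/-- Every real parabolic homomorphism is the real part of a period. -/
lemma exists_re_periodMap_eq (ψ : Additive (Gamma0 N) →+ ℝ)
    (hψ : ∀ γ : Gamma0 N, ((γ : SL(2, ℤ)) : Matrix (Fin 2) (Fin 2) ℤ).trace ^ 2 = 4 →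
      ψ (Additive.ofMul γ) = 0) :
    ∃ f, ∀ γ : Gamma0 N, (periodMap N f (Additive.ofMul γ)).re = ψ (Additive.ofMul γ) := by
  set ψc : Additive (Gamma0 N) →+ ℂ := Complex.ofRealHom.toAddMonoidHom.comp ψ with hψc
  have hmem : ψc ∈ parabolicHoms ℂ (Gamma0 N) ℂ := fun γ hγ => by simp [hψc, hψ γ hγ]
  rw [← P.range_periodHomPair hg] at hmem
  obtain ⟨⟨f, g⟩, hfg⟩ := hmem
  obtain ⟨pml, hpml⟩ := P.linear
  refine ⟨(f + g) - starForm (f - g), fun γ => ?_⟩
  have h : periodHomPair N (f, g) (Additive.ofMul γ) = (ψ (Additive.ofMul γ) : ℂ) := by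
    rw [hfg]; rfl
  rw [P.periodHomPair_apply] at h
  rw [← hpml, map_sub, AddMonoidHom.sub_apply, hpml, hpml, P.periodMap_starForm, Complex.sub_re,
    Complex.neg_re, Complex.conj_re, sub_neg_eq_add, ← Complex.add_re, h, Complex.ofReal_re]

/-- The forms with integral real periods span over `ℝ`. -/
lemma exists_integral_family :
    ∃ (n : ℕ) (b : Fin n → CuspForm (Gamma0 N) 2),
      (∀ i, IsIntegralRe (b i)) ∧ Submodule.span ℝ (Set.range b) = ⊤ := by
  classical
  obtain ⟨L, hL⟩ := P.exists_periodReLin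
  let ev : Additive (Gamma0 N) →+ (CuspForm (Gamma0 N) 2 → ℝ) :=
    { toFun := fun γ f => (periodMap N f γ).re
      map_zero' := funext fun f => by simp
      map_add' := fun γ δ => funext fun f => by simp }
  set M : Submodule ℤ (CuspForm (Gamma0 N) 2 → ℝ) := AddSubgroup.toIntSubmodule ev.range
  have : Module.Finite ℤ M := by
    have := fg_Gamma0 (N := N)
    have : AddGroup.FG ev.range := AddGroup.fg_range ev
    exact Module.Finite.iff_addGroup_fg.mpr (inferInstance : AddGroup.FG ev.range)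
  let evM : Additive (Gamma0 N) →+ M :=
    AddMonoidHom.mk' (fun γ => ⟨ev γ, ⟨γ, rfl⟩⟩) fun γ δ => Subtype.ext (map_add ev γ δ)
  have : IsAddTorsionFree M := ⟨fun n hn a b h => Subtype.ext (funext fun f => by
    have h' := congrArg (fun u : M => (u : CuspForm (Gamma0 N) 2 → ℝ) f) h
    simpa [hn] using h')⟩
  obtain ⟨n, e⟩ := Module.basisOfFiniteTypeTorsionFree' (R := ℤ) (M := M)
  let co : Fin n → (Additive (Gamma0 N) →+ ℤ) := fun i =>
    (e.coord i).toAddMonoidHom.comp evM
  have hb : ∀ i, ∃ b, ∀ γ : Gamma0 N,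
      (periodMap N b (Additive.ofMul γ)).re = ((co i (Additive.ofMul γ) : ℤ) : ℝ) := by
    intro i
    refine P.exists_re_periodMap_eq hg ((Int.castAddHom ℝ).comp (co i)) fun γ hγ => ?_
    have h0 : evM (Additive.ofMul γ) = 0 := by
      refine Subtype.ext (funext fun f => ?_)
      show (periodMap N f (Additive.ofMul γ)).re = 0
      rw [(mem_parabolicHoms_iff.mp (P.parabolic f)) γ hγ, Complex.zero_re]
    simp [co, h0]
  choose b hb using hb
  refine ⟨n, b, fun i γ => ⟨_, hb i γ⟩, eq_top_iff.mpr fun f _ => ?_⟩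
  have hf : f = ∑ i, ((e i : CuspForm (Gamma0 N) 2 → ℝ) f) • b i := by
    have hinj : Function.Injective L := by
      refine (injective_iff_map_eq_zero _).mpr fun u hu => ?_
      exact P.eq_zero_of_re_periodMap_eq_zero fun γ => (hL u γ).symm.trans (congrFun hu γ)
    refine hinj (funext fun γ => ?_)
    rw [map_sum, Finset.sum_apply, hL]
    simp only [map_smul, Pi.smul_apply, smul_eq_mul]
    have h := congrArg (fun m : M => (m : CuspForm (Gamma0 N) 2 → ℝ) f)
      (e.sum_repr (evM (Additive.ofMul γ)))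
    simp only [Submodule.coe_sum, Submodule.coe_smul, Finset.sum_apply, 
      zsmul_eq_mul] at h
    refine h.symm.trans (Finset.sum_congr rfl fun i _ => ?_)
    rw [hL, hb]
    exact mul_comm _ _
  rw [hf]
  exact Submodule.sum_mem _ fun i _ =>
    Submodule.smul_mem _ _ (Submodule.subset_span (Set.mem_range_self i))

omit hg in
lemma isIntegralRe_heckeAlgebra {t : Module.End ℂ (CuspForm (Gamma0 N) 2)}
    (ht : t ∈ CuspForm.heckeAlgebra N 2 ∅) {f : CuspForm (Gamma0 N) 2} (hf : IsIntegralRe f) :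
    IsIntegralRe (t f) := by
  obtain ⟨pml, hpml⟩ := P.linear
  induction ht using Algebra.adjoin_induction generalizing f with
  | mem x hx =>
    intro γ
    obtain ⟨F, hF⟩ := P.exists_primitive f
    obtain ⟨G, hG⟩ := P.exists_primitive (x f)
    have key : ∀ {ι : Type} [Fintype ι] (δ : ι → Gamma0 N),
        hG.2.2.1.period γ = ∑ i, hF.2.2.1.period (δ i) →
        ∃ m : ℤ, (periodMap N (x f) (Additive.ofMul γ)).re = m := by
      intro ι _ δ h
      choose m hm using fun i => hf (δ i)
      refine ⟨∑ i, m i, ?_⟩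
      rw [P.periodMap_eq _ _ hG, IsEquivariantPrimitive.periodHom_apply, h, Complex.re_sum]
      push_cast
      refine Finset.sum_congr rfl fun i _ => ?_
      rw [← hm i, P.periodMap_eq _ _ hF, IsEquivariantPrimitive.periodHom_apply]
    rcases hx with ⟨ℓ, hℓ, hℓN, -, rfl⟩ | ⟨q, hqN, hq, -, rfl⟩
    · have : NeZero ℓ := ⟨hℓ.ne_zero⟩
      obtain ⟨δ, hδ⟩ := exists_period_heckeTLin hℓ hℓN hF hG γ
      exact key δ hδ
    · have : NeZero q := ⟨hq.ne_zero⟩
      obtain ⟨δ, hδ⟩ := exists_period_heckeULin hq.ne_zero hqN hF hG γ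
      exact key δ hδ
  | algebraMap r =>
    intro γ
    obtain ⟨m, hm⟩ := hf γ
    refine ⟨r * m, ?_⟩
    rw [eq_intCast, Module.End.intCast_apply, ← hpml, map_zsmul, AddMonoidHom.coe_smul, Pi.smul_apply,
      hpml, zsmul_eq_mul]
    simp [hm]
  | add x y _ _ hx hy =>
    intro γ
    obtain ⟨a, ha⟩ := hx hf γ
    obtain ⟨b, hb⟩ := hy hf γ
    refine ⟨a + b, ?_⟩
    rw [LinearMap.add_apply, ← hpml, map_add, AddMonoidHom.add_apply, hpml, hpml]
    simp [ha, hb]
  | mul x y _ _ hx hy =>
    rw [Module.End.mul_apply]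
    exact hx (hy hf)

/-- A finite family of integral linear coordinates on the weight two Hecke algebra which detects
`ℝ`-linear relations. -/
theorem exists_real_coords :
    ∃ (I : Type) (_ : Finite I) (Φ : CuspForm.heckeAlgebra N 2 ∅ →ₗ[ℤ] (I → ℤ)),
      Function.Injective Φ ∧
      ∀ {K : Type} [Fintype K] (t : K → CuspForm.heckeAlgebra N 2 ∅) (x : K → ℝ),
        ∑ k, x k • (t k : Module.End ℂ (CuspForm (Gamma0 N) 2)) = 0 →
        ∑ k, x k • (fun i => ((Φ (t k) i : ℤ) : ℝ)) = 0 := by
  classical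
  obtain ⟨L, hL⟩ := P.exists_periodReLin
  obtain ⟨n, b, hb, hspan⟩ := P.exists_integral_family hg
  have := fg_Gamma0 (N := N)
  obtain ⟨s, hs⟩ := Group.FG.out (G := Gamma0 N)
  choose m hm using fun (t : CuspForm.heckeAlgebra N 2 ∅) (p : Fin n × s) =>
    P.isIntegralRe_heckeAlgebra t.2 (hb p.1) p.2.1
  have hm' : ∀ t p, ((m t p : ℤ) : ℝ)
      = L ((t : Module.End ℂ (CuspForm (Gamma0 N) 2)) (b p.1)) p.2.1 :=
    fun t p => (hm t p).symm.trans (hL _ _).symm
  let Φ : CuspForm.heckeAlgebra N 2 ∅ →ₗ[ℤ] (Fin n × s → ℤ) :=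
    AddMonoidHom.toIntLinearMap (AddMonoidHom.mk' m fun t u => funext fun p =>
      Int.cast_injective (α := ℝ) (by
        rw [Pi.add_apply, Int.cast_add, hm', hm', hm', Subalgebra.coe_add, LinearMap.add_apply,
          map_add, Pi.add_apply]))
  refine ⟨Fin n × s, inferInstance, Φ, (injective_iff_map_eq_zero _).mpr fun t ht => ?_, ?_⟩
  · refine Subtype.ext ?_
    have h0 : ∀ i, (t : Module.End ℂ (CuspForm (Gamma0 N) 2)) (b i) = 0 := by
      intro i
      refine P.eq_zero_of_re_periodMap_eq_zero ?_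
      obtain ⟨F, hF⟩ := P.exists_primitive ((t : Module.End ℂ (CuspForm (Gamma0 N) 2)) (b i))
      let W : Subgroup (Gamma0 N) :=
        { carrier := {γ | (periodMap N ((t : Module.End ℂ (CuspForm (Gamma0 N) 2)) (b i))
            (Additive.ofMul γ)).re = 0}
          one_mem' := by simp
          mul_mem' := fun {γ δ} hγ hδ => by
            simp only [Set.mem_ofPred_eq] at hγ hδ ⊢
            rw [ofMul_mul, map_add, Complex.add_re, hγ, hδ, add_zero]
          inv_mem' := fun {γ} hγ => by
            simp only [Set.mem_ofPred_eq] at hγ ⊢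
            rw [ofMul_inv, map_neg, Complex.neg_re, hγ, neg_zero] }
      have hW : W = ⊤ := by
        rw [eq_top_iff, ← hs, Subgroup.closure_le]
        intro γ hγ
        show (periodMap N _ (Additive.ofMul γ)).re = 0
        rw [← hL, ← hm' t (i, ⟨γ, hγ⟩)]
        have : m t (i, ⟨γ, hγ⟩) = 0 := congrFun ht (i, ⟨γ, hγ⟩)
        rw [this, Int.cast_zero]
      exact fun γ => (hW.symm ▸ Subgroup.mem_top γ : γ ∈ W)
    refine LinearMap.ext fun f => ?_
    have := LinearMap.ext_on_range hspan
      (f := (t : Module.End ℂ (CuspForm (Gamma0 N) 2)).restrictScalars ℝ) (g := 0) h0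
    exact LinearMap.congr_fun this f
  · intro K _ t x h
    funext p
    have := congrArg (fun T : Module.End ℂ (CuspForm (Gamma0 N) 2) => L (T (b p.1)) p.2.1) h
    simp only [LinearMap.sum_apply, LinearMap.smul_apply, map_sum, map_smul, Finset.sum_apply,
      Pi.smul_apply, LinearMap.zero_apply, map_zero, Pi.zero_apply, smul_eq_mul] at this
    simp only [Finset.sum_apply, Pi.smul_apply, smul_eq_mul, Pi.zero_apply]
    refine Eq.trans (Finset.sum_congr rfl fun k _ => ?_) this
    rw [← hm']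
    rfl

end PeriodFacts

end Fermat.Agent.EichlerShimura
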