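import Fermat.Prelude.Def_CuspForm_IntegralStructure
import Fermat.Agent.HeckeEigen.Eigenform
import Fermat.Agent.EichlerShimura.Facts
import Fermat.Agent.EichlerShimura.Lattice

/-!
The integral structure on `S₂(Γ₀(N))`, from the lower bound on its dimension.
-/

set_option autoImplicit false

open CongruenceSubgroup UpperHalfPlane ModularCurve ModularCurve.Period
open scoped MatrixGroups ComplexConjugate

namespace Fermat.Agent.EichlerShimura

open HeckeEigen

variable {N : ℕ} [NeZero N]

/-- A relation with complex coefficients among independent Hecke operators is trivial. -/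
lemma eq_zero_of_complex_relation
    (_hg : genusFormula N ≤ (Module.finrank ℂ (CuspForm (Gamma0 N) 2) : ℚ))
    {I : Type} [Finite I] {Φ : CuspForm.heckeAlgebra N 2 ∅ →ₗ[ℤ] (I → ℤ)}
    (hΦ : Function.Injective Φ)
    (hrel : ∀ {K : Type} [Fintype K] (t : K → CuspForm.heckeAlgebra N 2 ∅) (x : K → ℝ),
        ∑ k, x k • (t k : Module.End ℂ (CuspForm (Gamma0 N) 2)) = 0 →
        ∑ k, x k • (fun i => ((Φ (t k) i : ℤ) : ℝ)) = 0)
    {K : Type} [Fintype K] {t : K → CuspForm.heckeAlgebra N 2 ∅} (ht : LinearIndependent ℤ t)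
    {c : K → ℂ} (hc : ∑ k, c k • (t k : Module.End ℂ (CuspForm (Gamma0 N) 2)) = 0) :
    c = 0 := by
  have : Fintype I := Fintype.ofFinite I
  have hindep : LinearIndependent ℝ (fun k => algebraMap ℤ ℝ ∘ Φ (t k)) :=
    linearIndependent_algebraMap_comp_iff.mpr (ht.map' Φ (LinearMap.ker_eq_bot.mpr hΦ))
  have hreal : ∀ x : K → ℝ,
      ∑ k, x k • (t k : Module.End ℂ (CuspForm (Gamma0 N) 2)) = 0 → x = 0 := fun x hx =>
    funext fun k => Fintype.linearIndependent_iff.mp hindep x (by simpa [Function.comp_def] using hrel t x hx) k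
  have hconj : ∀ f, ∑ k, conj (c k) • (t k : Module.End ℂ (CuspForm (Gamma0 N) 2)) f = 0 := by
    intro f
    have h := congrArg (starLin N) (LinearMap.congr_fun hc (starForm f))
    simp only [LinearMap.sum_apply, LinearMap.smul_apply, map_sum, LinearMap.map_smulₛₗ,
      LinearMap.zero_apply, map_zero] at h
    refine Eq.trans (Finset.sum_congr rfl fun k _ => ?_) h
    show _ = conj (c k) • starForm ((t k : Module.End ℂ (CuspForm (Gamma0 N) 2)) (starForm f))
    rw [starForm_heckeAlgebra (t k).2, starForm_starForm]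
  have hre : (fun k => (c k).re) = 0 := by
    refine hreal _ (LinearMap.ext fun f => ?_)
    have h := LinearMap.congr_fun hc f
    simp only [LinearMap.sum_apply, LinearMap.smul_apply, LinearMap.zero_apply] at h ⊢
    have h2 : ∑ k, (c k).re • (t k : Module.End ℂ (CuspForm (Gamma0 N) 2)) f
        = (2 : ℂ)⁻¹ • (∑ k, c k • (t k : Module.End ℂ (CuspForm (Gamma0 N) 2)) f
          + ∑ k, conj (c k) • (t k : Module.End ℂ (CuspForm (Gamma0 N) 2)) f) := by
      rw [← Finset.sum_add_distrib, Finset.smul_sum]
      refine Finset.sum_congr rfl fun k _ => ?_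
      rw [← add_smul, Complex.add_conj, smul_smul]
      show ((c k).re : ℂ) • ((t k : Module.End ℂ (CuspForm (Gamma0 N) 2)) f) = _
      congr 1
      push_cast
      ring
    rw [h2, h, hconj f, add_zero, smul_zero]
  have him : (fun k => (c k).im) = 0 := by
    refine hreal _ (LinearMap.ext fun f => ?_)
    have h := LinearMap.congr_fun hc f
    simp only [LinearMap.sum_apply, LinearMap.smul_apply, LinearMap.zero_apply] at h ⊢
    have h2 : ∑ k, (c k).im • (t k : Module.End ℂ (CuspForm (Gamma0 N) 2)) f
        = (2 * Complex.I)⁻¹ • (∑ k, c k • (t k : Module.End ℂ (CuspForm (Gamma0 N) 2)) f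
          - ∑ k, conj (c k) • (t k : Module.End ℂ (CuspForm (Gamma0 N) 2)) f) := by
      rw [← Finset.sum_sub_distrib, Finset.smul_sum]
      refine Finset.sum_congr rfl fun k _ => ?_
      rw [← sub_smul, Complex.sub_conj, smul_smul]
      show ((c k).im : ℂ) • ((t k : Module.End ℂ (CuspForm (Gamma0 N) 2)) f) = _
      congr 1
      field_simp
      push_cast
      ring
    rw [h2, h, hconj f, sub_zero, smul_zero]
  exact funext fun k => Complex.ext (congrFun hre k) (congrFun him k)

/-- The integral structure, from the lower bound on the dimension. -/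
theorem hasIntegralStructure_two_of_genusFormula_le
    (hg : genusFormula N ≤ (Module.finrank ℂ (CuspForm (Gamma0 N) 2) : ℚ)) :
    CuspForm.HasIntegralStructure N 2 := by
  classical
  have P := periodFacts N
  obtain ⟨I, hI, Φ, hΦ, hrel⟩ := P.exists_real_coords hg
  have : Finite I := hI
  have := P.finiteDimensional_cuspForm
  have : Module.Finite ℤ (CuspForm.heckeAlgebra N 2 ∅) :=
    Module.Finite.of_injective Φ hΦ
  obtain ⟨n, e⟩ := Module.basisOfFiniteTypeTorsionFree' (R := ℤ) (M := CuspForm.heckeAlgebra N 2 ∅)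
  let Ψ : CuspForm (Gamma0 N) 2 →ₗ[ℂ] (Fin n → ℂ) := LinearMap.pi fun i =>
    (qCoeffLin N 2 1).comp (e i : Module.End ℂ (CuspForm (Gamma0 N) 2))
  have hΨ : ∀ f i, Ψ f i = pairOne (e i) f := fun f i => rfl
  have hpair : ∀ (f : CuspForm (Gamma0 N) 2) (t : CuspForm.heckeAlgebra N 2 ∅),
      pairOne t f = ∑ i, ((e.repr t i : ℤ) : ℂ) * pairOne (e i) f := by
    intro f t
    let ℓ : CuspForm.heckeAlgebra N 2 ∅ →ₗ[ℤ] ℂ :=
      AddMonoidHom.toIntLinearMap (AddMonoidHom.mk' (fun u => pairOne u f) fun u v => by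
        simp only [pairOne_apply, Subalgebra.coe_add, LinearMap.add_apply, map_add])
    show ℓ t = _
    conv_lhs => rw [← e.sum_repr t]
    rw [map_sum]
    refine Finset.sum_congr rfl fun i _ => ?_
    rw [map_zsmul, zsmul_eq_mul]
    rfl
  have hinj : Function.Injective Ψ := by
    refine (injective_iff_map_eq_zero _).mpr fun f hf => ?_
    refine eq_zero_of_forall_pairOne (by norm_num) fun t => ?_
    rw [hpair]
    exact Finset.sum_eq_zero fun i _ => by rw [← hΨ, hf, Pi.zero_apply, mul_zero]
  have hsurj : Function.Surjective Ψ := by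
    rw [← LinearMap.range_eq_top]
    by_contra hne
    obtain ⟨φ, hφ0, hφ⟩ := Submodule.exists_le_ker_of_lt_top _ (lt_top_iff_ne_top.mpr hne)
    set c : Fin n → ℂ := fun i => φ (Pi.single i 1)
    have hc : ∀ v : Fin n → ℂ, φ v = ∑ i, c i * v i := by
      intro v
      conv_lhs => rw [pi_eq_sum_univ v]
      rw [map_sum]
      refine Finset.sum_congr rfl fun i _ => ?_
      rw [map_smul, smul_eq_mul, mul_comm]
      congr 2
      funext j
      simp [Pi.single_apply, eq_comm]
    have h0 : ∑ i, c i • (e i : Module.End ℂ (CuspForm (Gamma0 N) 2)) = 0 := by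
      refine LinearMap.ext fun f => ?_
      refine eq_zero_of_forall_pairOne (by norm_num) fun s => ?_
      have h : φ (Ψ ((s : Module.End ℂ (CuspForm (Gamma0 N) 2)) f)) = 0 :=
        hφ (LinearMap.mem_range_self _ _)
      rw [hc] at h
      refine Eq.trans ?_ h
      simp only [pairOne_apply, LinearMap.sum_apply, LinearMap.smul_apply, map_sum, map_smul,
        smul_eq_mul]
      refine Finset.sum_congr rfl fun i _ => ?_
      rw [hΨ, ← pairOne_mul, mul_comm (e i) s, pairOne_mul]
      rfl
    have hc0 := eq_zero_of_complex_relation hg hΦ hrel e.linearIndependent h0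
    exact hφ0 (LinearMap.ext fun v => by rw [hc, hc0]; simp)
  choose f hf using fun i : Fin n => hsurj (Pi.single i 1)
  have hint : ∀ i, f i ∈ CuspForm.intLattice N 2 := by
    intro i
    refine Submodule.subset_span fun m => ?_
    rcases Nat.eq_zero_or_pos m with rfl | hm
    · exact ⟨0, by rw [qCoeff_zero, Int.cast_zero]⟩
    · obtain ⟨t, ht⟩ := exists_pairOne_eq_qCoeff (N := N) (k := 2) (by norm_num) m hm
      refine ⟨e.repr t i, ?_⟩
      rw [← ht, hpair]
      simp only [← hΨ, hf]
      simp [Pi.single_apply]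
  rw [CuspForm.HasIntegralStructure, eq_top_iff]
  intro g _
  have hg' : g = ∑ i, Ψ g i • f i := by
    apply hinj
    rw [map_sum]
    simp only [map_smul, hf]
    exact pi_eq_sum_univ' (Ψ g)
  rw [hg']
  exact Submodule.sum_mem _ fun i _ => Submodule.smul_mem _ _ (Submodule.subset_span (hint i))

end Fermat.Agent.EichlerShimura
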